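import Fermat.Agent.TriLow.RelC
import Fermat.Agent.X0Emb.Emb

/-!
# Interfaces: elliptic points of order three and the Hecke operators modulo three
-/

set_option autoImplicit false

noncomputable section

open AlgebraicCurve ModularCurve HahnSeries
open Fermat.Agent.S37aux

namespace Fermat.Agent.Ext.Wide

/-- (A), characteristic zero: at a place of `X₀(N)` which is an elliptic point of order three
(`ord_v j` is prime to three and positive) the Hecke correspondence is `(ℓ + 1) v` modulo
three. -/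
def EllHecke (N ℓ : ℕ) [NeZero N] [NeZero ℓ] : Prop :=
  ∀ v : Place (AlgebraicClosure ℚ) (modularFunctionFieldBar N),
    0 < v.ord (X0Emb.jF N) → ¬ (3 : ℤ) ∣ v.ord (X0Emb.jF N) →
      ∀ w : Place (AlgebraicClosure ℚ) (modularFunctionFieldBar N),
        (3 : ℤ) ∣ TEll.heckeDiv N ℓ (Finsupp.single v 1) w -
          ((ℓ : ℤ) + 1) * (Finsupp.single v (1 : ℤ) : Divisor _ _) w

/-- (B), characteristic three: for a function `φ` on `X₀(m)` whose orders are divisible by three
outside the places where `ord j` is positive and prime to three, `div (T_ℓ φ) ≡ (ℓ + 1) div φ`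
modulo three. -/
def WideAt (A : ValuationSubring (AlgebraicClosure ℚ)) (m ℓ : ℕ) [NeZero ℓ] : Prop :=
  ∀ φ φ' : FC A m, φ ≠ 0 →
    (∀ w : Place (RF A) (FC A m),
      (3 : ℤ) ∣ w.ord φ ∨ (0 < w.ord (jC A m) ∧ ¬ (3 : ℤ) ∣ w.ord (jC A m))) →
    (φ' : LaurentSeries (RF A)) = TEll.TSer (RF A) ℓ (φ : LaurentSeries (RF A)) →
      ∀ w : Place (RF A) (FC A m), (3 : ℤ) ∣ w.ord φ' - ((ℓ : ℤ) + 1) * w.ord φ

end Fermat.Agent.Ext.Wide

end
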