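import Fermat.Agent.Ext.Wide.EllPt
import Fermat.Agent.Ext.Wide.Defs
import Fermat.Agent.Mazur.CuspHecke

/-!
# The Hecke correspondence at an elliptic point of order three, modulo three
-/

set_option autoImplicit false
set_option linter.style.haveILetI false
set_option linter.unusedSectionVars false

open UpperHalfPlane Function CongruenceSubgroup ModularForm
open scoped Manifold MatrixGroups IntermediateField

noncomputable section

namespace Fermat.Agent.Ext.Wide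

open Fermat.Agent.X0Emb Fermat.Agent.X0Deg AlgebraicCurve Fermat.Agent.HeckePar
open ModularCurve Fermat.Agent.JLevelOne Fermat.Agent.GalRep Fermat.Agent.HeckeComm
open Fermat.Agent.LTF.CM Fermat.Agent.S24aux Fermat.Agent.TEll

local notation "KQ" => AlgebraicClosure ℚ

section Hecke

variable {M : ℕ} [NeZero M] {ℓ : ℕ} [hℓ : Fact ℓ.Prime]

/-- Two elliptic points related by a coset representative are equivalent. -/
theorem exists_gamma0_hrep (hM : ¬ ℓ ∣ M) (x : Option (ZMod ℓ)) {g g₁ : SL(2, ℤ)}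
    (hg : g ∈ Gamma0 M) (ht : (g 0 0 + g 1 1) ^ 2 = 1) (ht₁ : (g₁ 0 0 + g₁ 1 1) ^ 2 = 1) {τ : ℍ}
    (hτ : g • τ = τ) (hτ₁ : g₁ • (hrep ℓ x • τ) = hrep ℓ x • τ) :
    ∃ δ ∈ Gamma0 M, δ • τ = hrep ℓ x • τ := by
  have hℓ0 : 0 < ℓ := hℓ.out.pos
  have hℓC : (ℓ : ℂ) ≠ 0 := by exact_mod_cast hℓ0.ne'
  have hℓZ : (ℓ : ℤ) ≠ 0 := by exact_mod_cast hℓ0.ne'
  have hcop : Nat.Coprime ℓ M := (Nat.Prime.coprime_iff_not_dvd hℓ.out).2 hM
  have hMc : (M : ℤ) ∣ g 1 0 := (ZMod.intCast_zmod_eq_zero_iff_dvd _ _).1 (Gamma0_mem.1 hg)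
  have hdet : g 0 0 * g 1 1 - g 0 1 * g 1 0 = 1 := det_SL g
  have hdet₁ : g₁ 0 0 * g₁ 1 1 - g₁ 0 1 * g₁ 1 0 = 1 := det_SL g₁
  rw [smul_eq_iff_coord] at hτ hτ₁
  have hx := hrep_smul_coord x τ
  set τ' : ℍ := hrep ℓ x • τ with hτ'
  cases x with
  | none =>
    have e00 : (intRep ℓ none 0 0 : ℤ) = ℓ := by simp
    have e01 : (intRep ℓ none 0 1 : ℤ) = 0 := by simp
    have e10 : (intRep ℓ none 1 0 : ℤ) = 0 := by simp
    have e11 : (intRep ℓ none 1 1 : ℤ) = 1 := by simp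
    rw [e00, e01, e10, e11] at hx
    push_cast at hx
    have hx' : (τ' : ℂ) = ℓ * τ := by linear_combination -hx
    obtain ⟨a', b', c', d', hA, hB, hC, hD, k, hk⟩ := exists_sign (l := ℓ) hdet ht
      (A := ℓ * g₁ 0 0) (B := g₁ 0 1) (C := ℓ ^ 2 * g₁ 1 0) (D := ℓ * g₁ 1 1)
      (by linear_combination (ℓ : ℤ) ^ 2 * hdet₁) (by linear_combination (ℓ : ℤ) ^ 2 * ht₁) hτ (by
        rw [hx'] at hτ₁
        push_cast
        linear_combination hτ₁)
    have hA' : g₁ 0 0 = a' := mul_left_cancel₀ hℓZ hA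
    have hD' : g₁ 1 1 = d' := mul_left_cancel₀ hℓZ hD
    have hC' : ℓ * g₁ 1 0 = c' := mul_left_cancel₀ hℓZ (by rw [← hC]; ring)
    have hfix : (a' : ℂ) * τ + b' = τ * (c' * τ + d') := by
      apply mul_left_cancel₀ hℓC
      rw [← hA', ← hC', ← hD']
      have hBC : ((g₁ 0 1 : ℤ) : ℂ) = ℓ * b' := by exact_mod_cast hB
      rw [hx'] at hτ₁
      push_cast
      linear_combination hτ₁ - hBC
    refine exists_gamma0_of_eigen hℓ0 hcop (a := a') (b := b') (c := c') (d := d') ?_ ?_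
      (by rw [hk]; exact hMc.mul_right k)
      (p := ℓ) (q := 0) (r := 0) (s := 1) (by ring) (dvd_zero _) (e := d') ?_ ?_ ?_ ?_ ?_ hfix ?_
    · rw [← hA', ← hC', ← hD']
      linear_combination hdet₁ + g₁ 1 0 * hB
    · rw [← hA', ← hD']; exact ht₁
    · refine ⟨-(b' * g₁ 1 0), ?_⟩
      rw [← hA', ← hD']
      linear_combination -hdet₁ - g₁ 1 0 * hB
    · exact ⟨a' - d', by ring⟩
    · exact ⟨b', by ring⟩
    · exact ⟨g₁ 1 0, by rw [← hC']; ring⟩
    · exact ⟨0, by ring⟩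
    · rw [hx']; push_cast; ring
  | some j =>
    have e00 : (intRep ℓ (some j) 0 0 : ℤ) = 1 := by simp
    have e01 : (intRep ℓ (some j) 0 1 : ℤ) = j.val := by simp
    have e10 : (intRep ℓ (some j) 1 0 : ℤ) = 0 := by simp
    have e11 : (intRep ℓ (some j) 1 1 : ℤ) = ℓ := by simp
    rw [e00, e01, e10, e11] at hx
    generalize (j.val : ℤ) = n at hx
    push_cast at hx
    have hx' : (τ : ℂ) = ℓ * τ' - n := by linear_combination hx
    obtain ⟨a', b', c', d', hA, hB, hC, hD, k, hk⟩ := exists_sign (l := ℓ) hdet ht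
      (A := ℓ * g₁ 0 0 - n * g₁ 1 0)
      (B := ℓ * (g₁ 0 0 * n + g₁ 0 1 * ℓ) - n * (g₁ 1 0 * n + g₁ 1 1 * ℓ))
      (C := g₁ 1 0) (D := g₁ 1 0 * n + g₁ 1 1 * ℓ)
      (by linear_combination (ℓ : ℤ) ^ 2 * hdet₁) (by linear_combination (ℓ : ℤ) ^ 2 * ht₁) hτ (by
        push_cast
        rw [hx']
        linear_combination (ℓ : ℂ) ^ 2 * hτ₁)
    have hD' : g₁ 1 1 = d' - n * c' := mul_left_cancel₀ hℓZ (by linear_combination hD - n * hC)
    have hA' : g₁ 0 0 = a' + n * c' := mul_left_cancel₀ hℓZ (by linear_combination hA + n * hC)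
    have hB' : g₁ 0 0 * n + g₁ 0 1 * ℓ = b' + n * d' :=
      mul_left_cancel₀ hℓZ (by linear_combination hB + n * hD)
    have hfix : (a' : ℂ) * τ + b' = τ * (c' * τ + d') := by
      have hA2 : ((g₁ 0 0 : ℤ) : ℂ) = a' + n * c' := by exact_mod_cast hA'
      have hD2 : ((g₁ 1 1 : ℤ) : ℂ) = d' - n * c' := by exact_mod_cast hD'
      have hB2 : ((g₁ 0 0 : ℤ) : ℂ) * n + (g₁ 0 1 : ℤ) * ℓ = b' + n * d' := by exact_mod_cast hB'
      have hC2 : ((g₁ 1 0 : ℤ) : ℂ) = ℓ * c' := by exact_mod_cast hC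
      rw [hx']
      linear_combination (ℓ : ℂ) * hτ₁ - (ℓ * τ') * hA2 - hB2 + n * hA2 + (ℓ * τ') * hD2 + ℓ * τ' ^ 2 * hC2
    refine exists_gamma0_of_eigen hℓ0 hcop (a := a') (b := b') (c := c') (d := d') ?_ ?_
      (by rw [hk]; exact hMc.mul_right k)
      (p := 1) (q := n) (r := 0) (s := ℓ) (by ring) (dvd_zero _) (e := g₁ 0 0) ?_ ?_ ?_ ?_ ?_
      hfix ?_
    · have h1 : (a' + n * c') * (d' - n * c') - g₁ 0 1 * (ℓ * c') = 1 := by
        rw [← hA', ← hD', ← hC]; exact hdet₁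
      have h2 : g₁ 0 1 * ℓ = b' + n * d' - (a' + n * c') * n := by
        rw [← hA']; linear_combination hB'
      linear_combination h1 + c' * h2
    · have : a' + d' = g₁ 0 0 + g₁ 1 1 := by rw [hA', hD']; ring
      rw [this]; exact ht₁
    · refine ⟨-(g₁ 0 1 * c'), ?_⟩
      have : a' + d' = g₁ 0 0 + g₁ 1 1 := by rw [hA', hD']; ring
      rw [this]
      linear_combination -hdet₁ - g₁ 0 1 * hC
    · exact ⟨0, by rw [hA']; ring⟩
    · exact ⟨g₁ 0 1, by linear_combination -hB'⟩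
    · exact ⟨c', by ring⟩
    · exact ⟨d' - g₁ 0 0, by ring⟩
    · push_cast; linear_combination hx

/-- An elliptic place of order three in `T_ℓ v` is `v`. -/
theorem eq_of_hrep (hM : ¬ ℓ ∣ M) {v w : Place KQ (modularFunctionFieldBar M)} {τ : ℍ} {m m' : ℤ}
    (hw : At w τ m) (hm : (3 : ℤ) ∣ m) (x : Option (ZMod ℓ)) (hv : At v (hrep ℓ x • τ) m')
    (hm' : (3 : ℤ) ∣ m') : v = w := by
  obtain ⟨g, hg, hgτ, ht⟩ := At.exists_fix hw hm
  obtain ⟨g₁, -, hgτ₁, ht₁⟩ := At.exists_fix hv hm'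
  obtain ⟨δ, hδ, h⟩ := exists_gamma0_hrep hM x hg ht ht₁ hgτ hgτ₁
  have h1 := hw.smul hδ
  rw [h] at h1
  exact (hv.unique h1).1

/-- non cuspidal places. -/
theorem three_dvd_of_ne (hM : ¬ ℓ ∣ M) {v w : Place KQ (modularFunctionFieldBar M)}
    (hv : v.ord (jF M) = 1) (hw : 0 ≤ w.ord (jF M)) (hne : w ≠ v) :
    (3 : ℤ) ∣ TEll.heckeDiv M ℓ (Finsupp.single v 1) w := by
  classical
  obtain ⟨τ, m, hwτ⟩ := exists_at w hw
  obtain ⟨τv, hvτ, -⟩ := exists_fix hv
  have h1 : ∀ x : Option (ZMod ℓ), ∃ (u : Place KQ (modularFunctionFieldBar M)) (n : ℤ),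
      (∀ f : modularFunctionFieldBar M, f ≠ 0 → ordAt (hrep ℓ x • τ) (em M f) = n * u.ord f) ∧
      (At u (hrep ℓ x • τ) n ∨ n = 0) := by
    intro x
    by_cases hex : ∃ (v : Place KQ (modularFunctionFieldBar M)) (m : ℤ), At v (hrep ℓ x • τ) m
    · obtain ⟨u, n, hu⟩ := hex
      exact ⟨u, n, hu.2, Or.inl hu⟩
    · refine ⟨v, 0, fun f hf => ?_, Or.inr rfl⟩
      rw [zero_mul]
      exact ordAt_eq_zero_of_not_exists hex hf
  choose u n hun hat using h1
  have h2 := hwτ.hecke' hM hun (Finsupp.single v 1)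
  have h3 : ∀ x, n x * (Finsupp.single v (1 : ℤ) : Divisor KQ (modularFunctionFieldBar M)) (u x) =
      if u x = v ∧ n x ≠ 0 then 3 else 0 := by
    intro x
    rcases hat x with h4 | h4
    · by_cases hu : u x = v
      · rw [hu] at h4
        have h5 := At.mul_ord h4 (by rw [hv]; norm_num)
        rw [hv, mul_one] at h5
        rw [if_pos ⟨hu, by rw [h5]; norm_num⟩, hu, h5, Finsupp.single_eq_same, mul_one]
      · rw [if_neg (fun h => hu h.1), Finsupp.single_eq_of_ne hu, mul_zero]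
    · rw [h4, zero_mul, if_neg (fun h => h.2 rfl)]
  rw [Finset.sum_congr rfl fun x _ => h3 x] at h2
  by_cases hm : (3 : ℤ) ∣ m
  · -- no contribution
    have h4 : ∀ x, (if u x = v ∧ n x ≠ 0 then (3 : ℤ) else 0) = 0 := by
      intro x
      rw [if_neg]
      rintro ⟨hu, hn⟩
      have h5 := (hat x).resolve_right hn
      rw [hu] at h5
      have h6 := At.mul_ord h5 (by rw [hv]; norm_num)
      rw [hv, mul_one] at h6
      exact hne (eq_of_hrep hM hwτ hm x h5 (by rw [h6])).symm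
    rw [Finset.sum_congr rfl fun x _ => h4 x, Finset.sum_const_zero] at h2
    have h5 := hwτ.1
    rw [(mul_eq_zero.1 h2).resolve_left (by omega)]
    exact dvd_zero _
  · have h4 : (3 : ℤ) ∣ m * TEll.heckeDiv M ℓ (Finsupp.single v 1) w := by
      rw [h2]
      refine Finset.dvd_sum fun x _ => ?_
      split_ifs
      · exact dvd_refl _
      · exact dvd_zero _
    have h5 : IsCoprime (3 : ℤ) m := (Int.prime_three.coprime_iff_not_dvd).2 hm
    exact h5.dvd_of_dvd_mul_left h4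

end Hecke

section Cusps

variable {M : ℕ} [NeZero M] {ℓ : ℕ} [NeZero ℓ]

theorem rel_beta_alpha (hc : Nat.Coprime ℓ M) : ∃ (n : ℕ) (P : ℕ → Polynomial KQ), P n = 1 ∧
    ∑ i ∈ Finset.range (n + 1), Polynomial.aeval (heckeBetaBar KQ M ℓ (X0Emb.jF M)) (P i) *
      (heckeAlphaBar KQ M ℓ (X0Emb.jF M)) ^ i = 0 := by
  obtain ⟨n, P, hPn, -, hrel⟩ := TwoGauss.exists_modPoly X0Emb.iota ℓ
  refine ⟨n, P, hPn, ?_⟩
  have h1 : ∑ i ∈ Finset.range (n + 1), Polynomial.aeval (heckeAlphaBar KQ M ℓ (X0Emb.jF M)) (P i) *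
      (heckeBetaBar KQ M ℓ (X0Emb.jF M)) ^ i = 0 := by
    apply (algebraMap (modularFunctionFieldBar (M * ℓ)) (LaurentSeries KQ)).injective
    rw [map_zero, ← hrel, map_sum]
    refine Finset.sum_congr rfl fun i _ => ?_
    rw [map_mul, map_pow]
    congr 1
    · rw [← Polynomial.aeval_algebraMap_apply]
      exact congrArg (fun y => Polynomial.aeval y (P i))
        ((coe_heckeAlphaBar M ℓ (X0Emb.jF M)).trans (X0Emb.coe_jF M))
    · congr 1
      refine (coe_heckeBetaBar M ℓ (X0Emb.jF M)).trans ?_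
      rw [X0Emb.coe_jF]
      rfl
  have h2 := congrArg (swapHom iota hc : FF0 KQ (M * ℓ) →ₐ[KQ] FF0 KQ (M * ℓ)) h1
  rw [map_zero, map_sum] at h2
  rw [← h2]
  refine Finset.sum_congr rfl fun i _ => ?_
  rw [map_mul, map_pow, ← Polynomial.aeval_algHom_apply,
    swapHom_alpha (L := KQ) iota hc (X0Emb.jF M), swapHom_beta (L := KQ) iota hc (X0Emb.jF M)]

theorem ord_beta_neg (hc : Nat.Coprime ℓ M) {w : Place KQ (modularFunctionFieldBar (M * ℓ))}
    (h : w.ord (heckeAlphaBar KQ M ℓ (X0Emb.jF M)) < 0) :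
    w.ord (heckeBetaBar KQ M ℓ (X0Emb.jF M)) < 0 := by
  obtain ⟨n, P, hPn, hrel⟩ := rel_beta_alpha (M := M) (ℓ := ℓ) hc
  by_contra hcon
  exact absurd ((TwoGauss.ord_neg_iff w).mp h) (not_lt.mpr
    (TwoGauss.val_le_one_of_rel w.adicValuation (TwoGauss.adicVal_algebraMap_le w) hPn hrel
      (not_lt.mp (mt (TwoGauss.ord_neg_iff w).mpr hcon))))

/-- A place of `X₀(Mℓ)` with cuspidal image under `α` has cuspidal image under `β`. -/
theorem beta_cusp (hc : Nat.Coprime ℓ M) {w : Place KQ (modularFunctionFieldBar (M * ℓ))}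
    (h : (w.restrictAlong (heckeAlphaBar KQ M ℓ) (intAlpha M ℓ)).ord (X0Emb.jF M) < 0) :
    (w.restrictAlong (heckeBetaBar KQ M ℓ) (intBeta M ℓ)).ord (X0Emb.jF M) < 0 := by
  have h1 : w.ord (heckeAlphaBar KQ M ℓ (X0Emb.jF M)) < 0 := by
    rw [Place.ord_restrictAlong _ (intAlpha M ℓ)]
    refine mul_neg_of_pos_of_neg ?_ h
    let _ := algebraAlong (heckeAlphaBar KQ M ℓ)
    have := isScalarTower_along (heckeAlphaBar KQ M ℓ)
    have := isIntegral_along (heckeAlphaBar KQ M ℓ) (intAlpha M ℓ)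
    exact_mod_cast w.ramificationIndex_pos (F := modularFunctionFieldBar M)
  have h2 := ord_beta_neg hc h1
  rw [Place.ord_restrictAlong _ (intBeta M ℓ)] at h2
  by_contra hcon
  exact absurd h2 (not_lt.mpr (mul_nonneg (Int.natCast_nonneg _) (not_lt.mp hcon)))

theorem heckeDiv_cusp_eq_zero (hc : Nat.Coprime ℓ M) {x v : Place KQ (modularFunctionFieldBar M)}
    (hx : 0 ≤ x.ord (X0Emb.jF M)) (hv : v.ord (X0Emb.jF M) < 0) :
    TEll.heckeDiv M ℓ (Finsupp.single x 1) v = 0 := by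
  refine MazurCusp.correspondence_single_apply_eq_zero (heckeBetaBar KQ M ℓ)
    (heckeAlphaBar KQ M ℓ) (intBeta M ℓ) (intAlpha M ℓ) fun W hW hW' => ?_
  subst hW hW'
  exact absurd (beta_cusp hc hv) (not_lt.2 hx)

end Cusps

/-- **(A)**: the Hecke correspondence at an elliptic point of order three, modulo three. -/
theorem ellHecke {N ℓ : ℕ} [NeZero N] [NeZero ℓ] (hℓ : ℓ.Prime) (hℓN : ¬ ℓ ∣ N) :
    EllHecke N ℓ := by
  classical
  haveI : Fact ℓ.Prime := ⟨hℓ⟩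
  have hc : Nat.Coprime ℓ N := (Nat.Prime.coprime_iff_not_dvd hℓ).2 hℓN
  intro v hv hv3
  have hv1 : v.ord (jF N) = 1 := by
    obtain ⟨τ, m, hτ⟩ := exists_at v hv.le
    have h1 := At.mul_ord hτ hv
    have h2 : v.ord (jF N) ∣ 3 := ⟨m, by rw [← h1]; ring⟩
    have h3 : v.ord (jF N) ≤ 3 := Int.le_of_dvd (by norm_num) h2
    have hm := hτ.1
    have h4 : v.ord (jF N) ≠ 3 := fun h => hv3 (h ▸ dvd_refl _)
    have h5 : v.ord (jF N) ≠ 2 := by
      intro h
      rw [h] at h1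
      omega
    omega
  have hne : ∀ w, w ≠ v → (3 : ℤ) ∣ TEll.heckeDiv N ℓ (Finsupp.single v 1) w := by
    intro w hw
    by_cases hcw : 0 ≤ w.ord (jF N)
    · exact three_dvd_of_ne hℓN hv1 hcw hw
    · rw [heckeDiv_cusp_eq_zero hc hv.le (not_le.1 hcw)]
      exact dvd_zero _
  intro w
  by_cases hw : w = v
  · subst hw
    rw [Finsupp.single_eq_same, mul_one]
    have hdeg := TEll.degree_heckeDiv (N := N) (ℓ := ℓ) (Finsupp.single w 1)
    rw [MazurCusp.finrankAlong_beta N ℓ hℓ hℓN, Divisor.degree_single, FF.deg_eq_one] at hdeg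
    set D : Divisor KQ (modularFunctionFieldBar N) :=
      TEll.heckeDiv N ℓ (Finsupp.single w 1) with hD
    have h1 : (3 : ℤ) ∣ Divisor.degree (D - Finsupp.single w (D w)) := by
      rw [Deuring.degree_eq_sum_one]
      refine Finset.dvd_sum fun u _ => ?_
      rw [Finsupp.sub_apply]
      by_cases hu : u = w
      · subst hu
        rw [Finsupp.single_eq_same, sub_self]
        exact dvd_zero _
      · rw [Finsupp.single_eq_of_ne hu, sub_zero]
        exact hne u hu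
    rw [map_sub, hdeg, Divisor.degree_single, FF.deg_eq_one] at h1
    obtain ⟨k, hk⟩ := h1
    refine ⟨-k, ?_⟩
    push_cast at hk
    linear_combination -hk
  · rw [Finsupp.single_eq_of_ne hw, mul_zero, sub_zero]
    exact hne w hw

end Fermat.Agent.Ext.Wide

end
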