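import Fermat.Agent.S59.LowP
import Fermat.Agent.Dlog3.G2

/-!
# Level lowering at `p` without auxiliary primes
-/

set_option autoImplicit false
set_option linter.unusedSectionVars false
set_option linter.style.haveILetI false

noncomputable section

open CuspForm ModularCurve HahnSeries AlgebraicCurve
open Fermat.Agent.GaussVal Fermat.Agent.TEll Fermat.Agent.TwoGauss Fermat.Agent.GalRep
open WeierstrassCurve WeierstrassCurve.Affine WeierstrassCurve.Affine.Point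
open Fermat.Agent.ECFrob Fermat.Agent.Torsion Fermat.Agent.ECRed
open scoped Fermat.Agent.GaussVal

namespace Fermat.Agent.Ext.Wide

local notation "𝕂" => AlgebraicClosure ℚ

/-- `StarEis` at all places over `p`, for all the wild or tame subgroups. -/
def StarAll {p : ℕ} (hp : p.Prime) {m : ℕ} [NeZero m] (hm : ¬ p ∣ m) : Prop :=
  haveI : Fact p.Prime := ⟨hp⟩
  ∀ (A : ValuationSubring (AlgebraicClosure ℚ)) (hA : A.LiesOverPrime p)
    [CharP (IsLocalRing.ResidueField A) p]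
    (H3 : S18aux.DegThm (IsLocalRing.ResidueField A) m) (H : Subgroup (𝕂 ≃ₐ[ℚ] 𝕂)),
    (Nonempty (Star.Model.Wild (Star.Inst.model hp hm hA H3)
        (H.map (arithmeticGalois (modularFunctionFieldFull (m * p))))) ∨
      Nonempty (Star.Model.Tame (Star.Inst.model hp hm hA H3)
        (H.map (arithmeticGalois (modularFunctionFieldFull (m * p)))))) →
      S44w.StarEis hp hm hA H3 H

/-- `p ≥ 5`: the modular unit has degree prime to `p`. -/
theorem starAll_of_five_le {p : ℕ} (hp : p.Prime) (hp5 : 5 ≤ p) {m : ℕ} [NeZero m]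
    (hm : ¬ p ∣ m) : StarAll hp hm := by
  haveI : Fact p.Prime := ⟨hp⟩
  intro A hA _ H3 H hW
  haveI : IsAlgClosed (IsLocalRing.ResidueField A) := inferInstance
  haveI i1 : FF.IsFF (IsLocalRing.ResidueField A)
      (modularFunctionFieldFullC (IsLocalRing.ResidueField A) m) := isFF_m' H3
  haveI i2 : FF.IsFF 𝕂 (modularFunctionFieldBar (m * p)) := isFF_m
  refine S44w.starEis_of_unit hp hm hA H3 (Star.Inst.good hp hm hA H3)
    (Star.Inst.unitData hp hm hA H3) ?_ hW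
  change ¬ p ∣ 12
  intro h
  have h1 : p ∣ 2 ^ 2 * 3 := h
  rcases hp.dvd_mul.1 h1 with h2 | h2
  · have := Nat.le_of_dvd two_pos (hp.dvd_of_dvd_pow h2)
    omega
  · have := Nat.le_of_dvd three_pos h2
    omega

/-- **Level lowering at `p`** from a local statement at `p`. -/
theorem lower_of_star {p : ℕ} (hp : p.Prime) (hp2 : p ≠ 2) {W : WeierstrassCurve ℤ} (hΔ : W.Δ ≠ 0)
    (hirr : W.ModRepIsIrreducible p) {m : ℕ} [NeZero m] (hm : ¬ p ∣ m) (hstar : StarAll hp hm)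
    (hwt : haveI : Fact p.Prime := ⟨hp⟩
      ∀ (A : ValuationSubring (AlgebraicClosure ℚ)) (hA : A.LiesOverPrime p)
        [CharP (IsLocalRing.ResidueField A) p]
        (H3 : S18aux.DegThm (IsLocalRing.ResidueField A) m), LowP.WT hp hm hA H3 W)
    (hres : W.IsResiduallyModularOfLevel p (m * p)) :
    W.IsResiduallyModularOfLevel p m := by
  classical
  haveI : Fact p.Prime := ⟨hp⟩
  obtain ⟨A, hA⟩ := Frob.exists_liesOverPrime p hp
  haveI : CharP (IsLocalRing.ResidueField A) p := TEll.charP_residueField A p hA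
  haveI : IsAlgClosed (IsLocalRing.ResidueField A) := inferInstance
  have H3 : S18aux.DegThm (IsLocalRing.ResidueField A) m :=
    GoodRed.degThm_res hp hA (NeZero.ne m) hm
  haveI i1 : FF.IsFF (IsLocalRing.ResidueField A)
      (modularFunctionFieldFullC (IsLocalRing.ResidueField A) m) := isFF_m' H3
  haveI i2 : FF.IsFF 𝕂 (modularFunctionFieldBar (m * p)) := isFF_m
  obtain ⟨H, hHA, hHE, hWT⟩ := hwt A hA H3
  have hstar' := hstar A hA H3 H hWT
  obtain ⟨f, 𝔪, hf, h𝔪, hp𝔪, hcong⟩ := hres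
  set S : Finset ℕ := (m * p).primeFactors ∪ W.Δ.natAbs.primeFactors with hSdef
  have hN0 : m * p ≠ 0 := mul_ne_zero (NeZero.ne m) hp.ne_zero
  have hS : ∀ ℓ : ℕ, ℓ.Prime → ℓ ∣ m * p → ℓ ∈ S := fun ℓ hℓ hd =>
    Finset.mem_union_left _ (Nat.mem_primeFactors.2 ⟨hℓ, hd, hN0⟩)
  have hS2 : ∀ ℓ : ℕ, ℓ.Prime → ℓ ∉ S → W.IsGoodPrimeFor ℓ := by
    intro ℓ hℓ hℓS hd
    exact hℓS (Finset.mem_union_right _
      (Nat.mem_primeFactors.2 ⟨hℓ, Int.natCast_dvd.1 hd, Int.natAbs_ne_zero.2 hΔ⟩))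
  obtain ⟨f', 𝔪', hf', h𝔪', hp𝔪', hcong'⟩ := S44w.level_lower hp hm hA H3 hΔ hp2 hirr hS
    (a := fun ℓ => W.apOfModel ℓ) ∅ (fun ℓ _ _ => rfl) hf h𝔪 hp𝔪
    (fun ℓ hℓ hℓS => hcong ℓ hℓ (hS2 ℓ hℓ hℓS) (fun hd => hℓS (hS ℓ hℓ hd))
      (fun h => hℓS (h ▸ hS p hp (Dvd.intro_left m rfl))))
    (Dlog3.g2 hp hA hm) (S33aux.ordN hp hm hA H3) hHA hHE hstar'
  exact Ribet.isResiduallyModularOfLevel_of_cong (NeZero.ne m) hf' hΔ 𝔪' h𝔪' hp𝔪'
    (S := (↑S : Set ℕ)) S.finite_toSet hcong'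

/-- The good case. -/
theorem lower_good {p : ℕ} (hp : p.Prime) (hp2 : p ≠ 2) {W : WeierstrassCurve ℤ}
    (hirr : W.ModRepIsIrreducible p) (hgood : W.IsGoodPrimeFor p) {m : ℕ} [NeZero m]
    (hm : ¬ p ∣ m) (hstar : StarAll hp hm) (hres : W.IsResiduallyModularOfLevel p (m * p)) :
    W.IsResiduallyModularOfLevel p m :=
  lower_of_star hp hp2 (Fermat.Agent.ECFlat.Δ_ne_zero_of_good hgood) hirr hm hstar
    (fun _ hA _ H3 => haveI : Fact p.Prime := ⟨hp⟩
      LowP.wt_of_good hp hm hA H3 hp2 hgood) hres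

/-- splitting the level -/
theorem exists_eq_mul {p M : ℕ} (hM : 0 < M) (hpM : p ∣ M) (hp2M : ¬ p ^ 2 ∣ M) :
    ∃ m : ℕ, m ≠ 0 ∧ ¬ p ∣ m ∧ M = m * p ∧ M / p = m := by
  obtain ⟨m, rfl⟩ := hpM
  have hp0 : 0 < p := Nat.pos_of_mul_pos_right hM
  refine ⟨m, ?_, ?_, mul_comm _ _, Nat.mul_div_cancel_left m hp0⟩
  · rintro rfl
    rw [mul_zero] at hM
    exact lt_irrefl _ hM
  · rintro ⟨n, rfl⟩
    exact hp2M ⟨n, by ring⟩

end Fermat.Agent.Ext.Wide

end
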