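import Fermat.Agent.Ext.Wide.Defs
import Fermat.Agent.Ext.Wide.Lower

/-!
# `StarEis` at `p = 3` for every level, from (WIDE)
-/

set_option autoImplicit false
set_option linter.unusedSectionVars false
set_option linter.style.haveILetI false

noncomputable section

open AlgebraicCurve WithZero Module Polynomial
open Fermat.Agent.RR Fermat.Agent.FF

namespace Fermat.Agent.Ext.Wide

section Three

open ModularCurve HahnSeries Fermat.Agent.S28aux Fermat.Agent.Igusa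

variable (k : Type*) [Field k]

/-- `E₄ = 1` in characteristic three -/
theorem map_eisenstein4 [CharP k 3] : eisenstein4.map (Int.castRingHom k) = 1 := by
  ext n
  rw [PowerSeries.coeff_map, eisenstein4, PowerSeries.coeff_mk, PowerSeries.coeff_one]
  split_ifs with h
  · simp
  · have h3 : (240 : k) = 0 := by
      have h := CharP.cast_eq_zero k 3
      have h2 : (240 : k) = ((3 : ℕ) : k) * 80 := by norm_num
      rw [h2, h, zero_mul]
    simp [h3]

/-- `j = 1 / Δ` in characteristic three -/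
theorem jqModC_eq_deltaInvC [CharP k 3] : jqModC k = deltaInvC k := by
  rw [jqModC_eq, map_eisenstein4, map_one, one_pow, one_mul]

end Three

section Abs

variable {K F k F' : Type*} [Field K] [Field F] [Algebra K F] [Field k] [Field F']
    [Algebra k F'] [IsAlgClosed K] [IsFF K F] [IsAlgClosed k] [IsFF k F']
  {M : Star.Model K F k F'}

open Fermat.Agent.Star Fermat.Agent.Star.Model

/-- The non-Eisenstein argument at a place which is not a node, or is a node of width prime to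
`p`. -/
theorem dvd_ord_red_of_width (hM : M.Good) (U : UnitData M)
    {H : Subgroup (SemilinearAut K F)}
    (W : Nonempty (Wild M H) ∨ Nonempty (Tame M H)) {f : F} (f0 : f ≠ 0)
    (hfix : ∀ g ∈ H, g • f = f) (hO : f ∈ M.O 0)
    (hO' : f⁻¹ ∈ M.O 0) (hdiv : ∀ v : Place K F, (M.p : ℤ) ∣ v.ord f)
    {T : F →* F} {e : ℕ} (hT : M.TOp T e) {a : ℤ} {c : K} {g : F}
    (hTf : T f = algebraMap K F c * f ^ a * g ^ M.p) (hae : ¬ (M.p : ℤ) ∣ a - e)
    (w : Place k F')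
    (hw : (∀ i, i ∈ (M.ptOf 0 w).on) → ∃ C : Pt.Coord U hM (M.ptOf 0 w), ¬ M.p ∣ C.w) :
    (M.p : ℤ) ∣ w.ord (M.red 0 f) := by
  have hp : Prime (M.p : ℤ) := Nat.prime_iff_prime_int.1 M.hp
  by_cases hwn : ∀ i, i ∈ (M.ptOf 0 w).on
  · obtain ⟨C, hC⟩ := hw hwn
    have h1 : (M.p : ℤ) ∣ e * (C.w * ((M.ptOf 0 w).wOn hM 0).ord (M.red 0 f)) -
          C.w * ((M.ptOf 0 w).wOn hM 0).ord (M.red 0 (T f)) := by
      rcases W with ⟨⟨W⟩⟩ | ⟨⟨W⟩⟩
      · exact W.node_constT hT f0 hfix hO hO' hdiv hwn hwn C C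
      · exact W.node_constT hT f0 hfix hO hO' hdiv hwn hwn C C
    rw [wOn_ptOf] at h1
    obtain ⟨r, hr⟩ := h1
    obtain ⟨s, hs⟩ := dvd_ord_T_sub f0 hO hO' hT hTf w
    have h2 : (M.p : ℤ) ∣ (C.w : ℤ) * ((a - e) * w.ord (M.red 0 f)) :=
      ⟨-(r + C.w * s), by linear_combination -hr - (C.w : ℤ) * hs⟩
    have hC' : ¬ (M.p : ℤ) ∣ (C.w : ℤ) := fun h => hC (Int.natCast_dvd_natCast.1 h)
    exact (hp.dvd_or_dvd ((hp.dvd_or_dvd h2).resolve_left hC')).resolve_left hae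
  · have h1 : (M.ptOf 0 w).on = {0} := by
      have := (Pt.on_cases (P := M.ptOf 0 w)).resolve_left hwn
      rwa [ptOf_i] at this
    have := Pt.dvd_smooth (hM := hM) h1 f0 hO hO' (fun v _ => hdiv v)
    rwa [wOn_ptOf] at this

end Abs

open CuspForm ModularCurve HahnSeries
open Fermat.Agent.GaussVal Fermat.Agent.TEll Fermat.Agent.TwoGauss Fermat.Agent.GalRep
open scoped Fermat.Agent.GaussVal
open Fermat.Agent.S44w Fermat.Agent.Star.Inst Fermat.Agent.S37aux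

local notation "𝕂" => AlgebraicClosure ℚ

section Model

variable {A : ValuationSubring (AlgebraicClosure ℚ)} {m : ℕ} [NeZero m]
  [hpf : Fact (Nat.Prime 3)] [CharP (IsLocalRing.ResidueField A) 3]
  (hp : Nat.Prime 3) (hm : ¬ 3 ∣ m) (hA : A.LiesOverPrime 3)
  (H3 : S18aux.DegThm (IsLocalRing.ResidueField A) m)

local notation "κ" => IsLocalRing.ResidueField A

/-- the reduction of the modular unit is `j ^ 2` -/
theorem red_unit (H2 : genusFF (AlgebraicClosure ℚ) (modularFunctionFieldBar m) ≤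
      genusFF (IsLocalRing.ResidueField A)
        (modularFunctionFieldFullC (IsLocalRing.ResidueField A) m)) :
    (Star.Inst.model hp hm hA H3).red 0 (Star.Inst.unitData hp hm hA H3).u = jC A m ^ 2 := by
  rw [Star.Inst.red_unitEl hp hm hA H3 (X ^ 2) (by
    rw [map_pow, aeval_X, jqModC_eq_deltaInvC]) H2]
  rw [map_pow, aeval_X]
  congr 1
  exact ρ_jm hp hA H3

/-- At a node of width divisible by three, the order of `j` is positive and prime to three. -/
theorem wide_of_width [IsAlgClosed κ] [FF.IsFF 𝕂 (modularFunctionFieldBar (m * 3))]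
    [FF.IsFF κ (modularFunctionFieldFullC κ m)]
    (H2 : genusFF (AlgebraicClosure ℚ) (modularFunctionFieldBar m) ≤
      genusFF (IsLocalRing.ResidueField A)
        (modularFunctionFieldFullC (IsLocalRing.ResidueField A) m))
    (hM : (Star.Inst.model hp hm hA H3).Good) (w : Place κ (modularFunctionFieldFullC κ m))
    (C : Star.Model.Pt.Coord (Star.Inst.unitData hp hm hA H3) hM
      ((Star.Inst.model hp hm hA H3).ptOf 0 w)) (hC : 3 ∣ C.w) :
    0 < w.ord (jC A m) ∧ ¬ (3 : ℤ) ∣ w.ord (jC A m) := by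
  have h1 := C.o_eq
  have h2 := C.o_mul
  rw [Star.Model.wOn_ptOf, red_unit hp hm hA H3 H2, ord_pow] at h1
  rw [Star.Inst.unitData_E] at h2
  obtain ⟨c, hc⟩ := hC
  rw [hc] at h2
  have h3 : C.o * c = 4 := by
    have h2' : 3 * (C.o * c) = 12 := by rw [← h2]; ring
    omega
  have h4 : C.o ∣ 4 := ⟨c, h3.symm⟩
  have h5 : C.o ≤ 4 := Nat.le_of_dvd (by norm_num) h4
  have h6 : C.o ≠ 0 := by
    intro h0
    rw [h0] at h3
    omega
  push_cast at h1
  refine ⟨by omega, ?_⟩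
  rintro ⟨t, ht⟩
  rw [ht] at h1
  have h7 : C.o ≠ 3 := by
    intro h
    rw [h] at h4
    omega
  omega

/-- **`StarEis` at `p = 3`, for every level `m`**, from (WIDE). -/
theorem starEis_of_wide [IsAlgClosed κ] [FF.IsFF 𝕂 (modularFunctionFieldBar (m * 3))]
    [FF.IsFF κ (modularFunctionFieldFullC κ m)]
    (H2 : genusFF (AlgebraicClosure ℚ) (modularFunctionFieldBar m) ≤
      genusFF (IsLocalRing.ResidueField A)
        (modularFunctionFieldFullC (IsLocalRing.ResidueField A) m))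
    (hM : (Star.Inst.model hp hm hA H3).Good)
    (hwide : ∀ (ℓ : ℕ) [NeZero ℓ], ℓ.Prime → ¬ ℓ ∣ m * 3 → WideAt A m ℓ)
    {H : Subgroup (𝕂 ≃ₐ[ℚ] 𝕂)}
    (W : Nonempty (Star.Model.Wild (Star.Inst.model hp hm hA H3)
        (H.map (arithmeticGalois (modularFunctionFieldFull (m * 3))))) ∨
      Nonempty (Star.Model.Tame (Star.Inst.model hp hm hA H3)
        (H.map (arithmeticGalois (modularFunctionFieldFull (m * 3)))))) :
    StarEis hp hm hA H3 H := by
  intro f hO f0 hO' hfix hdiv ℓ _ hℓ hN a u hTf hℓa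
  have hfix' : ∀ g ∈ H.map (arithmeticGalois (modularFunctionFieldFull (m * 3))),
      g • f = f := by
    intro g hg
    obtain ⟨σ, hσ, rfl⟩ := Subgroup.mem_map.1 hg
    exact hfix σ hσ
  have hT := TOp_TT hp hm hA H3 hℓ hN
  have hTf' : TT (m * 3) ℓ f = algebraMap 𝕂 (modularFunctionFieldBar (m * 3)) 1 * f ^ a *
      u ^ (Star.Inst.model hp hm hA H3).p := by
    rw [map_one, one_mul]
    exact hTf
  have hae : ¬ ((Star.Inst.model hp hm hA H3).p : ℤ) ∣ a - ((ℓ + 1 : ℕ) : ℤ) := by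
    intro h
    apply hℓa
    have e1 : (((ℓ + 1 : ℕ) : ℤ)) = (ℓ : ℤ) + 1 := by push_cast; rfl
    rw [e1] at h
    exact h
  -- the narrow places
  have hnarrow : ∀ w : Place κ (modularFunctionFieldFullC κ m),
      ¬ (0 < w.ord (jC A m) ∧ ¬ (3 : ℤ) ∣ w.ord (jC A m)) →
      (3 : ℤ) ∣ w.ord (ρ₁ hp hm hA H3 ⟨f, hO⟩) := by
    intro w hw
    have key := dvd_ord_red_of_width (M := Star.Inst.model hp hm hA H3) hM
      (Star.Inst.unitData hp hm hA H3) W f0 hfix' hO hO' hdiv hT (c := 1) hTf' hae w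
      (fun hwn => by
        obtain ⟨C⟩ := Star.Model.Pt.exists_coord (hM := hM) (Star.Inst.unitData hp hm hA H3) hwn
        exact ⟨C, fun h => hw (wide_of_width hp hm hA H3 H2 hM w C h)⟩)
    rw [red_eq_ρ₁ hp hm hA H3 hO] at key
    exact key
  intro w
  have hTO : TT (m * 3) ℓ f ∈ O₁ hp hA := TT_mem_O₁ hp hA hℓ hN hO
  have hy0 : ρ₁ hp hm hA H3 ⟨f, hO⟩ ≠ 0 := by
    have := (Star.Model.red_ne_zero_iff (M := Star.Inst.model hp hm hA H3) (i := 0) hO).2
      ⟨f0, hO'⟩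
    rwa [red_eq_ρ₁ hp hm hA H3 hO] at this
  have h1 := hwide ℓ hℓ hN (ρ₁ hp hm hA H3 ⟨f, hO⟩) (ρ₁ hp hm hA H3 ⟨TT (m * 3) ℓ f, hTO⟩) hy0
    (fun w => by
      by_cases hw : 0 < w.ord (jC A m) ∧ ¬ (3 : ℤ) ∣ w.ord (jC A m)
      · exact Or.inr hw
      · exact Or.inl (hnarrow w hw))
    (coe_ρ₁_TT hp hm hA H3 hℓ hN hO hTO) w
  have h2 := Star.Model.dvd_ord_T_sub (M := Star.Inst.model hp hm hA H3) f0 hO hO' hT (c := 1)
    hTf' w
  rw [red_eq_ρ₁ hp hm hA H3 hO, red_eq_ρ₁ hp hm hA H3 hTO] at h2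
  have h2' : (3 : ℤ) ∣ w.ord (ρ₁ hp hm hA H3 ⟨TT (m * 3) ℓ f, hTO⟩) -
      a * w.ord (ρ₁ hp hm hA H3 ⟨f, hO⟩) := h2
  have h3 : (3 : ℤ) ∣ (a - (ℓ + 1)) * w.ord (ρ₁ hp hm hA H3 ⟨f, hO⟩) := by
    have := h1.sub h2'
    have h4 : (w.ord (ρ₁ hp hm hA H3 ⟨TT (m * 3) ℓ f, hTO⟩) -
        ((ℓ : ℤ) + 1) * w.ord (ρ₁ hp hm hA H3 ⟨f, hO⟩)) -
        (w.ord (ρ₁ hp hm hA H3 ⟨TT (m * 3) ℓ f, hTO⟩) -
        a * w.ord (ρ₁ hp hm hA H3 ⟨f, hO⟩)) =
        (a - (ℓ + 1)) * w.ord (ρ₁ hp hm hA H3 ⟨f, hO⟩) := by ring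
    rwa [h4] at this
  exact (Int.prime_three.dvd_or_dvd h3).resolve_left hℓa

end Model

/-- **(STAR) at `p = 3` for every level**, from (WIDE). -/
theorem starAll_three {m : ℕ} [NeZero m] (hm : ¬ 3 ∣ m)
    (hW : ∀ A : ValuationSubring (AlgebraicClosure ℚ), A.LiesOverPrime 3 →
      ∀ (ℓ : ℕ) [NeZero ℓ], ℓ.Prime → ¬ ℓ ∣ m * 3 → WideAt A m ℓ) :
    StarAll Nat.prime_three hm := by
  haveI : Fact (Nat.Prime 3) := ⟨Nat.prime_three⟩
  intro A hA _ H3 H hWT
  haveI : IsAlgClosed (IsLocalRing.ResidueField A) := inferInstance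
  haveI i1 : FF.IsFF (IsLocalRing.ResidueField A)
      (modularFunctionFieldFullC (IsLocalRing.ResidueField A) m) := isFF_m' H3
  haveI i2 : FF.IsFF 𝕂 (modularFunctionFieldBar (m * 3)) := isFF_m
  exact starEis_of_wide Nat.prime_three hm hA H3 (GoodRed.genus_le_all Nat.prime_three hA m hm)
    (Star.Inst.good Nat.prime_three hm hA H3) (fun ℓ _ hℓ hN => hW A hA ℓ hℓ hN) hWT

end Fermat.Agent.Ext.Wide

end
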