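import Fermat.Agent.Ext.Wide.Spec
import Fermat.Agent.Ext.Wide.StarEis
import Fermat.Agent.Ext.Wide.EllHecke

/-!
# `StarAll` for all odd primes and all levels
-/

set_option autoImplicit false

namespace Fermat.Agent.Ext.Wide

/-- `StarEis` for every odd prime `p` and every level prime to `p`. -/
theorem starAll {p : ℕ} (hp : p.Prime) (hp2 : p ≠ 2) {m : ℕ} [NeZero m] (hm : ¬ p ∣ m) :
    StarAll hp hm := by
  by_cases h3 : p = 3
  · subst h3
    refine starAll_three hm fun A hA' ℓ _ hℓ hℓm => ?_
    have h1 : ¬ ℓ ∣ m := fun h => hℓm (h.mul_right 3)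
    exact wideAt_of hA' hm hℓ h1 (ellHecke hℓ h1)
  · refine starAll_of_five_le hp ?_ hm
    have h2 := hp.two_le
    by_contra h5
    have : p = 4 := by omega
    subst this
    exact absurd hp (by norm_num)

end Fermat.Agent.Ext.Wide
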