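import Mathlib.NumberTheory.ModularForms.CongruenceSubgroups
import Mathlib.Analysis.Complex.UpperHalfPlane.MoebiusAction
import Mathlib.Tactic

/-!
# Elliptic points of order three are fixed by `τ ↦ l τ`

If `g ∈ Γ₀(m l)` has trace `±1` and fixes `τ` then `l τ = δ τ` for some `δ ∈ Γ₀(m)`.
-/

set_option autoImplicit false

open UpperHalfPlane CongruenceSubgroup
open scoped MatrixGroups

namespace Fermat.Agent.Ext.Wide

/-- Every divisor `n` of `r ^ 2 + r + 1` is a norm, compatibly with the root `r`. -/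
theorem exists_norm (n : ℕ) : 0 < n → ∀ r : ℤ, (n : ℤ) ∣ r ^ 2 + r + 1 →
    ∃ x y : ℤ, x ^ 2 - x * y + y ^ 2 = n ∧ (n : ℤ) ∣ x + y * r := by
  induction n using Nat.strong_induction_on with
  | _ n ih =>
  intro hn r hr
  rcases Nat.lt_or_ge 1 n with h1 | h1
  swap
  · have : n = 1 := by omega
    subst this
    exact ⟨1, 0, by norm_num, by simp⟩
  have hn' : (0 : ℤ) < n := by exact_mod_cast hn
  have hn1 : (1 : ℤ) < n := by exact_mod_cast h1
  -- reduce `r`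
  obtain ⟨s, t, hrs, hs1, hs2⟩ : ∃ s t : ℤ, r = s + n * t ∧ -(n : ℤ) ≤ 2 * s + 1 ∧
      2 * s + 1 ≤ n := by
    refine ⟨(r + n / 2) % n - n / 2, (r + n / 2) / n, ?_, ?_, ?_⟩
    · have := Int.emod_add_mul_ediv (r + n / 2) n
      linarith
    · have h2 := Int.emod_nonneg (r + n / 2) hn'.ne'
      omega
    · have h2 := Int.emod_lt_of_pos (r + n / 2) hn'
      omega
  have hs : (n : ℤ) ∣ s ^ 2 + s + 1 := by
    have h2 : s ^ 2 + s + 1 = (r ^ 2 + r + 1) - n * (t * (r + s) + t) := by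
      rw [hrs]; ring
    rw [h2]
    exact dvd_sub hr (Dvd.intro _ rfl)
  obtain ⟨k, hk⟩ := hs
  have hk0 : 0 < k := by
    by_contra hcon
    have h3 : (n : ℤ) * k ≤ 0 := mul_nonpos_of_nonneg_of_nonpos hn'.le (not_lt.1 hcon)
    nlinarith [sq_nonneg (2 * s + 1)]
  have hkn : k < n := by
    by_contra hcon
    have h3 : (n : ℤ) * n ≤ n * k := mul_le_mul_of_nonneg_left (not_lt.1 hcon) hn'.le
    nlinarith
  obtain ⟨k', rfl⟩ := Int.eq_ofNat_of_zero_le hk0.le
  obtain ⟨u, v, huv, hd⟩ := ih k' (by exact_mod_cast hkn) (by exact_mod_cast hk0) s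
    ⟨n, by rw [hk]; ring⟩
  obtain ⟨y, hy⟩ := hd
  have hk0' : (k' : ℤ) ≠ 0 := hk0.ne'
  have hx : (k' : ℤ) ∣ v - s * u + s * v := by
    refine ⟨n * v - s * y, ?_⟩
    linear_combination v * hk - s * hy
  obtain ⟨x, hx⟩ := hx
  refine ⟨x, y, ?_, ?_⟩
  · apply mul_left_cancel₀ (pow_ne_zero 2 hk0')
    have e1 : (k' : ℤ) ^ 2 * (x ^ 2 - x * y + y ^ 2) =
        (k' * x) ^ 2 - (k' * x) * (k' * y) + (k' * y) ^ 2 := by ring
    rw [e1, ← hx, ← hy]
    have e2 : (v - s * u + s * v) ^ 2 - (v - s * u + s * v) * (u + v * s) + (u + v * s) ^ 2 =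
        (s ^ 2 + s + 1) * (u ^ 2 - u * v + v ^ 2) := by ring
    rw [e2, hk, huv]
    ring
  · refine ⟨v + y * t, ?_⟩
    apply mul_left_cancel₀ hk0'
    rw [hrs]
    linear_combination -hx - s * hy + v * hk

/-- The element of norm `l` in the order generated by `g`. -/
theorem exists_norm_mat {l : ℕ} (hl : 0 < l) {a b c d : ℤ} (hdet : a * d - b * c = 1)
    (htr : (a + d) ^ 2 = 1) (hc : (l : ℤ) ∣ c) :
    ∃ x y : ℤ, x ^ 2 + (a + d) * x * y + y ^ 2 = l ∧ (l : ℤ) ∣ x + y * a := by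
  obtain ⟨c', rfl⟩ := hc
  have h1 : (a + d - 1) * (a + d + 1) = 0 := by linear_combination htr
  rcases mul_eq_zero.1 h1 with h | h
  · -- trace one
    have hd : d = 1 - a := by linarith
    obtain ⟨x, y, hxy, hdv⟩ := exists_norm l hl (-a) ⟨-b * c', by
      rw [hd] at hdet; linear_combination -hdet⟩
    refine ⟨x, -y, ?_, ?_⟩
    · rw [hd]; linear_combination hxy
    · have : x + -y * a = x + y * -a := by ring
      rwa [this]
  · have hd : d = -1 - a := by linarith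
    obtain ⟨x, y, hxy, hdv⟩ := exists_norm l hl a ⟨-b * c', by
      rw [hd] at hdet; linear_combination -hdet⟩
    exact ⟨x, y, by rw [hd]; linear_combination hxy, hdv⟩

/-- **Elliptic points of order three**: if `g ∈ Γ₀(m l)` of trace `±1` fixes `τ`, then `l τ` is
`Γ₀(m)`-equivalent to `τ`. -/
theorem exists_gamma0_smul {m l : ℕ} (hl : 0 < l) {g : SL(2, ℤ)} (hg : g ∈ Gamma0 (m * l))
    (htr : (g 0 0 + g 1 1) ^ 2 = 1) {τ : ℍ} (hτ : g • τ = τ) :
    ∃ δ ∈ Gamma0 m, ((δ • τ : ℍ) : ℂ) = l * τ := by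
  have hdet : g 0 0 * g 1 1 - g 0 1 * g 1 0 = 1 := by
    have := g.2
    rwa [Matrix.det_fin_two] at this
  have hc : ((m * l : ℕ) : ℤ) ∣ g 1 0 := by
    rw [Gamma0_mem, ZMod.intCast_zmod_eq_zero_iff_dvd] at hg
    exact hg
  obtain ⟨c', hc'⟩ := hc
  push_cast at hc'
  obtain ⟨x, y, hxy, A, hA⟩ := exists_norm_mat hl hdet htr ⟨m * c', by rw [hc']; ring⟩
  have hl0 : (l : ℤ) ≠ 0 := by exact_mod_cast hl.ne'
  set M : Matrix (Fin 2) (Fin 2) ℤ := !![x + y * g 1 1, -(y * g 0 1); -(y * (m * c')), A] with hM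
  have hMdet : M.det = 1 := by
    rw [hM, Matrix.det_fin_two_of]
    apply mul_left_cancel₀ hl0
    have e1 : (l : ℤ) * ((x + y * g 1 1) * A - -(y * g 0 1) * -(y * (m * c'))) =
        (x + y * g 1 1) * (l * A) - y ^ 2 * (g 0 1 * (m * l * c')) := by ring
    rw [e1, ← hA, ← hc']
    linear_combination hxy + y ^ 2 * hdet
  set δ : SL(2, ℤ) := ⟨M, hMdet⟩ with hδ
  refine ⟨δ, ?_, ?_⟩
  · rw [Gamma0_mem]
    change ((M 1 0 : ℤ) : ZMod m) = 0
    have : M 1 0 = -(y * (m * c')) := by simp [hM]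
    rw [this]
    push_cast
    simp
  · have h0 : denom (g : GL (Fin 2) ℝ) τ ≠ 0 := denom_ne_zero _ _
    have h1 : ((g • τ : ℍ) : ℂ) = τ := by rw [hτ]
    rw [UpperHalfPlane.specialLinearGroup_apply] at h1 ⊢
    have h2 : ((g 1 0 : ℤ) : ℂ) * τ + ((g 1 1 : ℤ) : ℂ) ≠ 0 := by
      simpa [denom] using h0
    have h3 : ((g 0 0 : ℤ) : ℂ) * τ + ((g 0 1 : ℤ) : ℂ) =
        τ * (((g 1 0 : ℤ) : ℂ) * τ + ((g 1 1 : ℤ) : ℂ)) := by
      have h4 : (((g 0 0 : ℤ) : ℂ) * τ + ((g 0 1 : ℤ) : ℂ)) /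
          (((g 1 0 : ℤ) : ℂ) * τ + ((g 1 1 : ℤ) : ℂ)) = τ := by
        simpa using h1
      rwa [div_eq_iff h2] at h4
    have h5 : ((M 1 0 : ℤ) : ℂ) * τ + ((M 1 1 : ℤ) : ℂ) ≠ 0 := by
      have h51 := denom_ne_zero (δ : GL (Fin 2) ℝ) τ
      have h52 : denom (δ : GL (Fin 2) ℝ) (τ : ℂ) =
          ((δ 1 0 : ℤ) : ℂ) * τ + ((δ 1 1 : ℤ) : ℂ) := by
        simp [denom]
      rw [h52] at h51
      exact h51
    have h6 : (((M 0 0 : ℤ) : ℂ) * τ + ((M 0 1 : ℤ) : ℂ)) =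
        l * τ * (((M 1 0 : ℤ) : ℂ) * τ + ((M 1 1 : ℤ) : ℂ)) := by
      have e0 : M 0 0 = x + y * g 1 1 := by simp [hM]
      have e1 : M 0 1 = -(y * g 0 1) := by simp [hM]
      have e2 : M 1 0 = -(y * (m * c')) := by simp [hM]
      have e3 : M 1 1 = A := by simp [hM]
      rw [e0, e1, e2, e3]
      have hAC : ((x : ℤ) : ℂ) + y * (g 0 0 : ℤ) = l * A := by exact_mod_cast hA
      have hcC : ((g 1 0 : ℤ) : ℂ) = m * l * c' := by exact_mod_cast hc'
      push_cast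
      linear_combination -y * h3 + τ * hAC - y * τ ^ 2 * hcC
    have h7 : (((M 0 0 : ℤ) : ℂ) * τ + ((M 0 1 : ℤ) : ℂ)) /
        (((M 1 0 : ℤ) : ℂ) * τ + ((M 1 1 : ℤ) : ℂ)) = l * τ := by
      rw [div_eq_iff h5, h6]
    simpa [hδ] using h7

/-- The element of norm `l` with a prescribed root. -/
theorem exists_norm_root {l : ℕ} (hl : 0 < l) {t : ℤ} (ht : t ^ 2 = 1) {r : ℤ}
    (hr : (l : ℤ) ∣ r ^ 2 - t * r + 1) :
    ∃ x y : ℤ, x ^ 2 + t * x * y + y ^ 2 = l ∧ (l : ℤ) ∣ x + y * r := by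
  have h1 : (t - 1) * (t + 1) = 0 := by linear_combination ht
  rcases mul_eq_zero.1 h1 with h | h
  · have ht1 : t = 1 := by linarith
    subst ht1
    obtain ⟨x, y, hxy, hdv⟩ := exists_norm l hl (-r) (by convert hr using 1; ring)
    refine ⟨x, -y, by linear_combination hxy, ?_⟩
    have : x + -y * r = x + y * -r := by ring
    rwa [this]
  · have ht1 : t = -1 := by linarith
    subst ht1
    obtain ⟨x, y, hxy, hdv⟩ := exists_norm l hl r (by convert hr using 1; ring)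
    exact ⟨x, y, by linear_combination hxy, hdv⟩

/-- the action of `SL₂(ℤ)` in coordinates. -/
theorem smul_eq_iff_coord (γ : SL(2, ℤ)) (τ τ' : ℍ) :
    γ • τ = τ' ↔ (γ 0 0 : ℂ) * τ + γ 0 1 = τ' * ((γ 1 0 : ℂ) * τ + γ 1 1) := by
  have h1 : (γ 1 0 : ℂ) * τ + γ 1 1 ≠ 0 := by
    have h := UpperHalfPlane.denom_ne_zero (γ : GL (Fin 2) ℝ) τ
    simpa [UpperHalfPlane.denom] using h
  rw [UpperHalfPlane.ext_iff, UpperHalfPlane.specialLinearGroup_apply]
  simp only [algebraMap_int_eq, eq_intCast, Complex.ofReal_intCast]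
  rw [div_eq_iff h1]

/-- **The matrix lemma**: if `g` fixes `τ`, has trace `±1`, and `h` of determinant `l` satisfies
`h g ≡ r h` modulo `l`, then `h τ` is `Γ₀(M)`-equivalent to `τ`. -/
theorem exists_gamma0_of_eigen {M l : ℕ} (hl : 0 < l) (hcop : Nat.Coprime l M)
    {a b c d : ℤ} (hdet : a * d - b * c = 1) (htr : (a + d) ^ 2 = 1) (hMc : (M : ℤ) ∣ c)
    {p q r s : ℤ} (hh : p * s - q * r = l) (hMr : (M : ℤ) ∣ r) {e : ℤ}
    (he : (l : ℤ) ∣ e ^ 2 - (a + d) * e + 1)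
    (h1 : (l : ℤ) ∣ p * a + q * c - e * p) (h2 : (l : ℤ) ∣ p * b + q * d - e * q)
    (h3 : (l : ℤ) ∣ r * a + s * c - e * r) (h4 : (l : ℤ) ∣ r * b + s * d - e * s)
    {τ τ' : ℍ} (hfix : (a : ℂ) * τ + b = τ * (c * τ + d))
    (hτ' : (p : ℂ) * τ + q = τ' * (r * τ + s)) : ∃ δ ∈ Gamma0 M, δ • τ = τ' := by
  obtain ⟨x, y, hxy, hroot⟩ := exists_norm_root hl htr he
  have hl0 : (l : ℤ) ≠ 0 := by exact_mod_cast hl.ne'
  have key : ∀ u v : ℤ, (l : ℤ) ∣ u - e * v → (l : ℤ) ∣ x * v + y * u := by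
    intro u v huv
    have h5 : x * v + y * u = (x + y * e) * v + y * (u - e * v) := by ring
    rw [h5]
    exact dvd_add (hroot.mul_right _) (huv.mul_left _)
  obtain ⟨P, hP⟩ := key _ _ h1
  obtain ⟨Q, hQ⟩ := key _ _ h2
  obtain ⟨R, hR⟩ := key _ _ h3
  obtain ⟨S, hS⟩ := key _ _ h4
  have hMR : (M : ℤ) ∣ R := by
    have h5 : (M : ℤ) ∣ l * R := by
      rw [← hR]
      exact dvd_add (hMr.mul_left _) ((dvd_add (hMr.mul_right _) (hMc.mul_left _)).mul_left _)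
    have h6 : IsCoprime (M : ℤ) (l : ℤ) := by
      rw [Nat.isCoprime_iff_coprime]; exact hcop.symm
    exact h6.dvd_of_dvd_mul_left h5
  have hdet' : P * S - Q * R = 1 := by
    apply mul_left_cancel₀ (pow_ne_zero 2 hl0)
    have e1 : (l : ℤ) ^ 2 * (P * S - Q * R) = (l * P) * (l * S) - (l * Q) * (l * R) := by ring
    rw [e1, ← hP, ← hQ, ← hR, ← hS]
    have e2 : (x * p + y * (p * a + q * c)) * (x * s + y * (r * b + s * d)) -
        (x * q + y * (p * b + q * d)) * (x * r + y * (r * a + s * c)) =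
        (p * s - q * r) * (x ^ 2 + (a + d) * x * y + y ^ 2 * (a * d - b * c)) := by ring
    rw [e2, hh, hdet, mul_one, hxy]
    ring
  let δ : SL(2, ℤ) := ⟨!![P, Q; R, S], by rw [Matrix.det_fin_two_of]; exact hdet'⟩
  refine ⟨δ, ?_, ?_⟩
  · rw [Gamma0_mem]
    change ((R : ℤ) : ZMod M) = 0
    exact (ZMod.intCast_zmod_eq_zero_iff_dvd _ _).2 hMR
  · rw [smul_eq_iff_coord]
    change (P : ℂ) * τ + Q = τ' * ((R : ℂ) * τ + S)
    have hlC : (l : ℂ) ≠ 0 := by exact_mod_cast hl.ne'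
    have hP' : (x : ℂ) * p + y * (p * a + q * c) = l * P := by exact_mod_cast hP
    have hQ' : (x : ℂ) * q + y * (p * b + q * d) = l * Q := by exact_mod_cast hQ
    have hR' : (x : ℂ) * r + y * (r * a + s * c) = l * R := by exact_mod_cast hR
    have hS' : (x : ℂ) * s + y * (r * b + s * d) = l * S := by exact_mod_cast hS
    apply mul_left_cancel₀ hlC
    have e1 : (l : ℂ) * (P * τ + Q) = (x + y * (c * τ + d)) * (p * τ + q) := by
      linear_combination -τ * hP' - hQ' + y * p * hfix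
    have e2 : (l : ℂ) * (R * τ + S) = (x + y * (c * τ + d)) * (r * τ + s) := by
      linear_combination -τ * hR' - hS' + y * r * hfix
    calc (l : ℂ) * (P * τ + Q) = (x + y * (c * τ + d)) * (p * τ + q) := e1
      _ = τ' * ((x + y * (c * τ + d)) * (r * τ + s)) := by rw [hτ']; ring
      _ = l * (τ' * (R * τ + S)) := by rw [← e2]; ring

/-- Two integral matrices fixing the same point, of discriminants `-3` and `-3 l²`. -/
theorem exists_sign {l : ℕ} {a b c d : ℤ} (hdet : a * d - b * c = 1)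
    (htr : (a + d) ^ 2 = 1) {A B C D : ℤ} (hDET : A * D - B * C = (l : ℤ) ^ 2)
    (hTR : (A + D) ^ 2 = (l : ℤ) ^ 2) {τ : ℍ} (hfix : (a : ℂ) * τ + b = τ * (c * τ + d))
    (hFIX : (A : ℂ) * τ + B = τ * (C * τ + D)) :
    ∃ a' b' c' d' : ℤ, A = l * a' ∧ B = l * b' ∧ C = l * c' ∧ D = l * d' ∧ (c ∣ c') := by
  -- proportionality
  have him : (τ : ℂ).im ≠ 0 := τ.im_ne_zero
  have hlin : ∀ u v : ℤ, (u : ℂ) * τ = v → u = 0 ∧ v = 0 := by
    intro u v h
    have h1 := congrArg Complex.im h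
    have h2 : (u : ℝ) * (τ : ℂ).im = 0 := by
      simpa using h1
    have h3 : (u : ℝ) = 0 := (mul_eq_zero.1 h2).resolve_right him
    have h4 : u = 0 := by exact_mod_cast h3
    subst h4
    refine ⟨rfl, ?_⟩
    have h5 : (v : ℂ) = 0 := by rw [← h]; simp
    exact_mod_cast h5
  have hc0 : c ≠ 0 := by
    rintro rfl
    have h1 : ((a - d : ℤ) : ℂ) * τ = ((-b : ℤ) : ℂ) := by
      push_cast
      push_cast at hfix
      linear_combination hfix
    obtain ⟨h2, h3⟩ := hlin _ _ h1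
    have h4 : a = d := by linarith
    subst h4
    have h5 : (4 : ℤ) * (a * a - b * 0) = (a + a) ^ 2 := by ring
    rw [hdet, htr] at h5
    norm_num at h5
  have h1 : ((C * (a - d) - c * (A - D) : ℤ) : ℂ) * τ = ((c * B - C * b : ℤ) : ℂ) := by
    push_cast
    linear_combination (C : ℂ) * hfix - c * hFIX
  obtain ⟨h2, h3⟩ := hlin _ _ h1
  have h4 : c ^ 2 * ((A - D) ^ 2 + 4 * B * C) = C ^ 2 * ((a - d) ^ 2 + 4 * b * c) := by
    linear_combination (-(c * (A - D)) - C * (a - d)) * h2 + 4 * C * c * h3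
  have h5 : (A - D) ^ 2 + 4 * B * C = -3 * (l : ℤ) ^ 2 := by
    linear_combination hTR - 4 * hDET
  have h6 : (a - d) ^ 2 + 4 * b * c = -3 := by
    linear_combination htr - 4 * hdet
  rw [h5, h6] at h4
  have h7 : (C - l * c) * (C + l * c) = 0 := by
    have h8 : 3 * ((C - l * c) * (C + l * c)) = 0 := by linear_combination h4
    exact (mul_eq_zero.1 h8).resolve_left (by norm_num)
  have hodd : Odd (a - d) := by
    have h8 : Odd ((a + d) ^ 2) := by rw [htr]; exact odd_one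
    have h9 : Odd (a + d) := by
      rw [Int.odd_pow' (by norm_num : (2 : ℕ) ≠ 0)] at h8
      exact h8
    obtain ⟨k, hk⟩ := h9
    exact ⟨k - d, by linarith⟩
  have hT : (A + D - l) * (A + D + l) = 0 := by linear_combination hTR
  -- the sign of `C`
  obtain ⟨ε, hε, hC⟩ : ∃ ε : ℤ, (ε = 1 ∨ ε = -1) ∧ C = ε * (l * c) := by
    rcases mul_eq_zero.1 h7 with h8 | h8
    · exact ⟨1, Or.inl rfl, by linarith⟩
    · exact ⟨-1, Or.inr rfl, by linarith⟩
  obtain ⟨ε', hε', hAD⟩ : ∃ ε : ℤ, (ε = 1 ∨ ε = -1) ∧ A + D = ε * l := by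
    rcases mul_eq_zero.1 hT with h8 | h8
    · exact ⟨1, Or.inl rfl, by linarith⟩
    · exact ⟨-1, Or.inr rfl, by linarith⟩
  have hAmD : A - D = ε * (l * (a - d)) := by
    apply mul_left_cancel₀ hc0
    have : c * (A - D) = C * (a - d) := by linarith
    rw [this, hC]; ring
  have hB : B = ε * (l * b) := by
    apply mul_left_cancel₀ hc0
    have : c * B = C * b := by linarith
    rw [this, hC]; ring
  have hodd1 : Odd (ε * (a - d)) := by
    rcases hε with rfl | rfl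
    · rwa [one_mul]
    · rw [neg_one_mul]; exact hodd.neg
  have hodd2 : Odd ε' := by
    rcases hε' with rfl | rfl
    · exact odd_one
    · exact ⟨-1, by norm_num⟩
  obtain ⟨k, hk⟩ := hodd2.add_odd hodd1
  obtain ⟨k', hk'⟩ := hodd2.sub_odd hodd1
  refine ⟨k, ε * b, ε * c, k', ?_, by rw [hB]; ring, by rw [hC]; ring, ?_, Dvd.intro_left _ rfl⟩
  · have : 2 * A = 2 * (l * k) := by
      linear_combination hAD + hAmD + l * hk
    linarith
  · have : 2 * D = 2 * (l * k') := by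
      linear_combination hAD - hAmD + l * hk'
    linarith

end Fermat.Agent.Ext.Wide
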