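import Fermat.Agent.Ext.Wide.EllMat
import Fermat.Agent.LTF.CMHeckeB

/-!
# Elliptic points of order three on `X₀(M)` over `ℚ̄`
-/

set_option autoImplicit false
set_option linter.style.haveILetI false
set_option linter.unusedSectionVars false

open UpperHalfPlane Function CongruenceSubgroup ModularForm
open scoped Manifold MatrixGroups IntermediateField

noncomputable section

namespace Fermat.Agent.Ext.Wide

open Fermat.Agent.X0Emb Fermat.Agent.X0Deg AlgebraicCurve Fermat.Agent.HeckePar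
open ModularCurve Fermat.Agent.JLevelOne Fermat.Agent.GalRep Fermat.Agent.HeckeComm
open Fermat.Agent.LTF.CM Fermat.Agent.S24aux

local notation "KQ" => AlgebraicClosure ℚ

/-- the order of `j - j(τ)` at `τ`. -/
theorem ordH_jH_sub_cases (τ : ℍ) :
    (jFun τ = 0 ∧ ordH τ (jH - constHol (jFun τ)) = (3 : ℕ)) ∨
      ordH τ (jH - constHol (jFun τ)) = (2 : ℕ) ∨ ordH τ (jH - constHol (jFun τ)) = (1 : ℕ) := by
  rw [ordH_jH_sub]
  by_cases h4 : E₄ τ = 0
  · left
    exact ⟨(jFun_eq_zero_iff τ).2 h4, analyticOrderAt_jFun_sub_of_E₄ h4⟩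
  by_cases h6 : E₆ τ = 0
  · right; left
    exact analyticOrderAt_jFun_sub_of_E₆ h6
  · right; right
    exact analyticOrderAt_jFun_sub_of_ne h4 h6

variable {M : ℕ} [NeZero M]

/-- If the multiplicity is divisible by three, the point is elliptic of order three. -/
theorem At.three_dvd {w : Place KQ (modularFunctionFieldBar M)} {τ : ℍ} {m : ℤ} (h : At w τ m)
    (h3 : (3 : ℤ) ∣ m) : m = 3 ∧ w.ord (jF M) = 1 := by
  obtain ⟨a, ha, hv⟩ := h.exists_value
  have h1 := h.2 _ (jF_sub_ne a)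
  rw [em_jF_sub, ordAt_algebraMap τ (jH_sub_ne _), ← ha] at h1
  have hm := h.1
  rcases ordH_jH_sub_cases τ with ⟨h0, h2⟩ | h2 | h2
  · rw [h2] at h1
    have h4 : (3 : ℤ) = m * w.ord (jF M - algebraMap KQ (modularFunctionFieldBar M) a) := by
      simpa using h1
    have ha0 : a = 0 := by
      apply iota.injective
      rw [← ha, h0, map_zero]
    rw [ha0, map_zero, sub_zero] at h4
    obtain ⟨k, hk⟩ := h3
    rw [hk] at h4
    have h5 : k * w.ord (jF M) = 1 := by linarith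
    have hk0 : 0 < k := by omega
    have h6 : k = 1 := by
      rcases Int.eq_one_or_neg_one_of_mul_eq_one h5 with h7 | h7
      · exact h7
      · omega
    rw [h6] at hk h5
    exact ⟨by omega, by linarith⟩
  · rw [h2] at h1
    exfalso
    have h4 : (2 : ℤ) = m * w.ord (jF M - algebraMap KQ (modularFunctionFieldBar M) a) := by
      simpa using h1
    obtain ⟨k, hk⟩ := h3
    have : (3 : ℤ) ∣ 2 := ⟨k * w.ord (jF M - algebraMap KQ (modularFunctionFieldBar M) a), by
      rw [h4, hk]; ring⟩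
    norm_num at this
  · rw [h2] at h1
    exfalso
    have h4 : (1 : ℤ) = m * w.ord (jF M - algebraMap KQ (modularFunctionFieldBar M) a) := by
      simpa using h1
    obtain ⟨k, hk⟩ := h3
    have : (3 : ℤ) ∣ 1 := ⟨k * w.ord (jF M - algebraMap KQ (modularFunctionFieldBar M) a), by
      rw [h4, hk]; ring⟩
    norm_num at this

/-- a place over `j = 0` is given by a point with `m * ord_v j = 3` -/
theorem At.mul_ord {v : Place KQ (modularFunctionFieldBar M)} {τ : ℍ} {m : ℤ} (h : At v τ m)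
    (hv : 0 < v.ord (jF M)) : m * v.ord (jF M) = 3 := by
  have hv' : 0 < v.ord (jF M - algebraMap KQ (modularFunctionFieldBar M) 0) := by
    rwa [map_zero, sub_zero]
  have hj := h.jFun_eq hv'
  rw [map_zero] at hj
  have h1 := h.2 _ (jF_sub_ne 0)
  rw [em_jF_sub, ordAt_algebraMap τ (jH_sub_ne _), map_zero, ← hj, ordH_jH_sub,
    analyticOrderAt_jFun_sub_of_E₄ ((jFun_eq_zero_iff τ).1 hj), map_zero, sub_zero] at h1
  simpa using h1.symm

/-- At an elliptic place of order three there is a stabiliser in `Γ₀(M)`. -/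
theorem exists_fix {v : Place KQ (modularFunctionFieldBar M)} (hv : v.ord (jF M) = 1) :
    ∃ τ : ℍ, At v τ 3 ∧ ∃ g ∈ Gamma0 M, g • τ = τ ∧ (g 0 0 + g 1 1) ^ 2 = 1 := by
  have hv' : 0 < v.ord ((embData M).jF - algebraMap KQ (modularFunctionFieldBar M) 0) := by
    rw [map_zero, sub_zero]
    change 0 < v.ord (jF M)
    rw [hv]; norm_num
  obtain ⟨x, r, hr, hπ, hf⟩ := GalRep.OrbitDatum_exists (transcendental_sub_jF 0) (card_XX 0)
    (datum0 (embData M)) v hv'
  have hn : ordH ρ (jH - constHol ((embData M).ι 0)) = (3 : ℕ) := by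
    rw [ordH_jH_sub, map_zero]
    simpa using! analyticOrderAt_jFun_ρ
  have ho : (datum0 (embData M)).o ((datum0 (embData M)).Ψ x
      ((embData M).jF - algebraMap KQ (modularFunctionFieldBar M) 0)) = 3 :=
    ordAt_jF_sub (embData M) hn x
  rw [ho] at hf
  have hf1 := hf _ (jF_sub_ne 0)
  have hf2 : (r : ℤ) * 3 = 3 * v.ord (jF M - algebraMap KQ (modularFunctionFieldBar M) 0) := by
    rw [← hf1]
    congr 1
    exact ho.symm
  rw [map_zero, sub_zero, hv] at hf2
  have hr1 : r = 1 := by omega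
  subst hr1
  rw [pow_one] at hπ
  obtain ⟨σ, rfl⟩ := QuotientGroup.mk_surjective x
  have hπ' : (ModularGroup.S * ModularGroup.T) • (QuotientGroup.mk σ : XX M) =
      QuotientGroup.mk σ := hπ
  rw [MulAction.Quotient.smul_mk, smul_eq_mul, QuotientGroup.eq] at hπ'
  have he : ((ModularGroup.S * ModularGroup.T * σ)⁻¹ * σ)⁻¹ =
      σ⁻¹ * (ModularGroup.S * ModularGroup.T * σ) := by group
  have hmem : σ⁻¹ * (ModularGroup.S * ModularGroup.T * σ) ∈ Gamma0 M := he ▸ inv_mem hπ'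
  refine ⟨σ⁻¹ • ρ, ⟨by norm_num, fun f hf0 => ?_⟩, _, hmem, ?_, ?_⟩
  · have h4 := hf f hf0
    rw [Nat.cast_one, one_mul] at h4
    rw [ordAt_smul' _ _ (em_ne_zero hf0), inv_inv, ← embM_mk]
    exact h4
  · have h5 : (ModularGroup.S * ModularGroup.T) • ρ = ρ := ST_smul_ρ
    rw [mul_smul, mul_smul _ σ, smul_inv_smul, h5]
  · have htr : ∀ a b : SL(2, ℤ), (a * b) 0 0 + (a * b) 1 1 = (b * a) 0 0 + (b * a) 1 1 := by
      intro a b
      simp only [Matrix.SpecialLinearGroup.coe_mul, Matrix.mul_apply, Fin.sum_univ_two]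
      ring
    have e2 : ModularGroup.S * ModularGroup.T * σ * σ⁻¹ = ModularGroup.S * ModularGroup.T := by
      group
    rw [htr, e2]
    decide

/-- the trace is invariant under conjugation. -/
theorem trace_conj (a b : SL(2, ℤ)) :
    (a * b * a⁻¹) 0 0 + (a * b * a⁻¹) 1 1 = b 0 0 + b 1 1 := by
  have htr : ∀ a b : SL(2, ℤ), (a * b) 0 0 + (a * b) 1 1 = (b * a) 0 0 + (b * a) 1 1 := by
    intro a b
    simp only [Matrix.SpecialLinearGroup.coe_mul, Matrix.mul_apply, Fin.sum_univ_two]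
    ring
  have e2 : a⁻¹ * (a * b) = b := by group
  rw [htr, e2]

/-- The stabiliser at any point of multiplicity divisible by three. -/
theorem At.exists_fix {w : Place KQ (modularFunctionFieldBar M)} {τ : ℍ} {m : ℤ} (h : At w τ m)
    (h3 : (3 : ℤ) ∣ m) : ∃ g ∈ Gamma0 M, g • τ = τ ∧ (g 0 0 + g 1 1) ^ 2 = 1 := by
  obtain ⟨hm, hw⟩ := At.three_dvd h h3
  obtain ⟨τ', h', g, hg, hgτ, htr⟩ := Wide.exists_fix hw
  obtain ⟨γ, hγ, rfl⟩ := h'.exists_smul h
  refine ⟨γ * g * γ⁻¹, mul_mem (mul_mem hγ hg) (inv_mem hγ), ?_, ?_⟩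
  · rw [mul_smul, mul_smul, inv_smul_smul, hgτ]
  · rw [trace_conj, htr]

section Hecke

variable {ℓ : ℕ} [hℓ : Fact ℓ.Prime]

/-- the action of the representatives in coordinates. -/
theorem hrep_smul_coord (x : Option (ZMod ℓ)) (τ : ℍ) :
    ((intRep ℓ x 0 0 : ℤ) : ℂ) * τ + (intRep ℓ x 0 1 : ℤ) =
      (hrep ℓ x • τ : ℍ) * (((intRep ℓ x 1 0 : ℤ) : ℂ) * τ + (intRep ℓ x 1 1 : ℤ)) := by
  have h := UpperHalfPlane.coe_smul_of_det_pos (hrep_det_pos x) τ
  have hd := UpperHalfPlane.denom_ne_zero (hrep ℓ x) τ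
  rw [eq_div_iff hd] at h
  have hv := val_hrep hℓ.out.ne_zero x
  have hij : ∀ i j, (((hrep ℓ x : GL (Fin 2) ℝ) : Matrix (Fin 2) (Fin 2) ℝ) i j : ℝ) =
      ((intRep ℓ x i j : ℤ) : ℝ) := by
    intro i j
    rw [hv]; rfl
  rw [UpperHalfPlane.denom, UpperHalfPlane.num, hij, hij, hij, hij] at h
  push_cast at h
  exact h.symm

end Hecke

end Fermat.Agent.Ext.Wide

end
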