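import Fermat.Agent.TriLow.RedHecke
import Fermat.Agent.TwoComp.Lp

/-!
# Specialisation of places and Hecke correspondences

Let `R` be the reduction map of divisors of a function field with good reduction.

* `r_zeroDiv`: the divisor of zeros of a function whose reduction has the same degree reduces to
  the divisor of zeros of the reduction;
* `exists_lift_zero`: a zero of the reduction of multiplicity prime to `q` lifts to a zero of
  multiplicity prime to `q`;
* `hecke_mod`: if a positive correspondence `T` acts modulo `q` as the scalar `e` on the places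
  of a set `S`, then its reduction acts as the scalar `e` modulo `q` on the divisors of functions
  which are concentrated modulo `q` on the reductions of places of `S`.
-/

set_option autoImplicit false

open AlgebraicCurve WithZero Module Polynomial
open scoped IntermediateField
open Fermat.Agent.RR Fermat.Agent.FF Fermat.Agent.Deuring

namespace Fermat.Agent.Ext.Wide

attribute [local instance] nonempty_place finiteResidue

section Mod

variable {K F : Type*} [Field K] [Field F] [Algebra K F]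

theorem exists_eq_zsmul {D : Divisor K F} {q : ℤ} (h : ∀ v, q ∣ D v) :
    ∃ E : Divisor K F, D = q • E := by
  refine ⟨D.mapRange (fun a => a / q) (by simp), ?_⟩
  ext v
  rw [Finsupp.smul_apply, Finsupp.mapRange_apply, smul_eq_mul, Int.mul_ediv_cancel' (h v)]

end Mod

variable {K F k F' : Type*} [Field K] [Field F] [Algebra K F] [Field k] [Field F'] [Algebra k F']
  [IsFF K F] [IsFF k F'] [IsAlgClosed K] [IsAlgClosed k] {G : GaussData K F k F'}

omit [IsAlgClosed k] in
theorem dvd_map (R : RedMap G) {q : ℤ} {D : Divisor K F} (h : ∀ v, q ∣ D v) (w : Place k F') :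
    q ∣ R.r D w := by
  obtain ⟨E, rfl⟩ := exists_eq_zsmul h
  rw [map_zsmul, Finsupp.smul_apply, smul_eq_mul]
  exact dvd_mul_right _ _

/-- The reduction of a place is a place. -/
theorem exists_place_red (R : RedMap G) (v : Place K F) :
    ∃ w : Place k F', R.r (Finsupp.single v 1) = Finsupp.single w 1 :=
  RedInj.degree_one_eq_single (R.nonneg _ (Finsupp.single_nonneg.mpr zero_le_one))
    (by rw [R.degree_r, degree_single_one])

/-- **The divisor of zeros specialises.** -/
theorem r_zeroDiv (R : RedMap G) {j : F} (hj : j ∈ G.O) (hjt : Transcendental K j)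
    (hρt : Transcendental k (G.ρ ⟨j, hj⟩))
    (hdeg : finrank K⟮j⟯ F = finrank k⟮G.ρ ⟨j, hj⟩⟯ F') :
    R.r (zeroDiv (K := K) j) = zeroDiv (K := k) (G.ρ ⟨j, hj⟩) := by
  have hj0 : G.ρ ⟨j, hj⟩ ≠ 0 := by
    intro h0
    rw [h0] at hρt
    exact hρt isAlgebraic_zero
  have hdiv : ∀ {K F : Type _} [Field K] [Field F] [Algebra K F] [IsFF K F] (y : F),
      (div y : Divisor K F) = zeroDiv (K := K) y - zeroDiv (K := K) y⁻¹ := by
    intro K F _ _ _ _ y
    ext v
    rw [div_apply, Finsupp.sub_apply, zeroDiv_apply, zeroDiv_apply, v.ord_inv]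
    omega
  have h1 := R.r_div j hj hj0
  rw [hdiv j, map_sub] at h1
  refine (eq_of_le_of_degree_le (fun w => ?_) ?_).symm
  · have h2 := DFunLike.congr_fun h1 w
    rw [Finsupp.sub_apply, div_apply] at h2
    have h3 : 0 ≤ R.r (zeroDiv (K := K) j) w := R.nonneg _ (zeroDiv_nonneg j) w
    have h4 : 0 ≤ R.r (zeroDiv (K := K) j⁻¹) w := R.nonneg _ (zeroDiv_nonneg _) w
    rw [zeroDiv_apply]
    omega
  · rw [R.degree_r, degree_zeroDiv hjt, degree_zeroDiv hρt, hdeg]

/-- A zero of the reduction of multiplicity prime to `q` lifts to a zero of multiplicity prime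
to `q`. -/
theorem exists_lift_zero (R : RedMap G) {j : F} (hj : j ∈ G.O) (hjt : Transcendental K j)
    (hρt : Transcendental k (G.ρ ⟨j, hj⟩))
    (hdeg : finrank K⟮j⟯ F = finrank k⟮G.ρ ⟨j, hj⟩⟯ F') {q : ℤ} {w : Place k F'}
    (hw : 0 < w.ord (G.ρ ⟨j, hj⟩)) (hq : ¬ q ∣ w.ord (G.ρ ⟨j, hj⟩)) :
    ∃ v : Place K F, R.r (Finsupp.single v 1) = Finsupp.single w 1 ∧ 0 < v.ord j ∧
      ¬ q ∣ v.ord j := by
  classical
  by_contra hcon
  push Not at hcon
  apply hq
  have h1 : zeroDiv (K := k) (G.ρ ⟨j, hj⟩) w = w.ord (G.ρ ⟨j, hj⟩) := by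
    rw [zeroDiv_apply]; omega
  rw [← h1, ← r_zeroDiv R hj hjt hρt hdeg]
  conv_rhs => rw [← Finsupp.sum_single (zeroDiv (K := K) j)]
  rw [Finsupp.sum, map_sum, Finsupp.finset_sum_apply]
  refine Finset.dvd_sum fun v hv => ?_
  obtain ⟨w', hw'⟩ := exists_place_red R v
  have h2 : R.r (Finsupp.single v (zeroDiv (K := K) j v)) =
      zeroDiv (K := K) j v • Finsupp.single w' 1 := by
    rw [← hw', ← map_zsmul]
    congr 1
    ext u
    simp [Finsupp.single_apply]
  rw [h2, Finsupp.smul_apply, smul_eq_mul]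
  by_cases hww : w' = w
  · subst hww
    have h3 : 0 < v.ord j := by
      rw [Finsupp.mem_support_iff, zeroDiv_apply] at hv
      by_contra h4
      exact hv (max_eq_right (not_lt.1 h4))
    have h4 : zeroDiv (K := K) j v = v.ord j := by rw [zeroDiv_apply]; omega
    rw [h4]
    exact (hcon v hw' h3).mul_right _
  · rw [Finsupp.single_eq_of_ne (Ne.symm hww), mul_zero]
    exact dvd_zero _

/-- **Correspondences modulo `q` and specialisation.** -/
theorem hecke_mod (R : RedMap G) (hg : genusFF K F ≤ genusFF k F')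
    (T : Divisor K F →+ Divisor K F) (c : ℤ)
    (hT : ∀ v : Place K F, 0 ≤ T (Finsupp.single v 1))
    (hTd : ∀ v : Place K F, Divisor.degree (T (Finsupp.single v 1)) ≤ c)
    (τ : F → F) (hTτ : ∀ f : F, f ≠ 0 → T (div f) = div (τ f)) (τb : F' → F')
    (hτ : ∀ (f : F) (hf : f ∈ G.O), G.ρ ⟨f, hf⟩ ≠ 0 →
      ∃ h : τ f ∈ G.O, G.ρ ⟨τ f, h⟩ = τb (G.ρ ⟨f, hf⟩) ∧ τb (G.ρ ⟨f, hf⟩) ≠ 0)
    {q e : ℤ} {S : Set (Place K F)}
    (hS : ∀ v ∈ S, ∀ u : Place K F,
      q ∣ T (Finsupp.single v 1) u - e * (Finsupp.single v 1 : Divisor K F) u)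
    {g : F'} (hg0 : g ≠ 0)
    (hgS : ∀ w : Place k F', q ∣ w.ord g ∨
      ∃ v ∈ S, R.r (Finsupp.single v 1) = Finsupp.single w 1)
    (w : Place k F') : q ∣ w.ord (τb g) - e * w.ord g := by
  classical
  -- lifts of the places
  have hlift : ∀ w : Place k F', ∃ v : Place K F, R.r (Finsupp.single v 1) = Finsupp.single w 1 ∧
      (q ∣ w.ord g ∨ v ∈ S) := by
    intro w
    rcases hgS w with h | ⟨v, hv, hvw⟩
    · obtain ⟨v, hv⟩ := (RedInj.RedData.ofRedMap R).exists_lift_place hg w
      exact ⟨v, hv, Or.inl h⟩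
    · exact ⟨v, hvw, Or.inr hv⟩
  choose L hL1 hL2 using hlift
  set D : Divisor K F := ∑ w ∈ (div g : Divisor k F').support, w.ord g • Finsupp.single (L w) 1
    with hD
  have hrD : R.r D = div g := by
    rw [hD, map_sum]
    conv_rhs => rw [← Finsupp.sum_single (div g : Divisor k F')]
    rw [Finsupp.sum]
    refine Finset.sum_congr rfl fun w _ => ?_
    rw [map_zsmul, hL1, div_apply]
    ext u
    simp [Finsupp.single_apply]
  -- the correspondence acts as `e` on `D`
  have hTD : ∀ u : Place K F, q ∣ (T D - e • D) u := by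
    intro u
    have h1 : T D - e • D = ∑ w ∈ (div g : Divisor k F').support,
        w.ord g • (T (Finsupp.single (L w) 1) - e • Finsupp.single (L w) 1) := by
      rw [hD, map_sum, Finset.smul_sum, ← Finset.sum_sub_distrib]
      refine Finset.sum_congr rfl fun w _ => ?_
      rw [map_zsmul, smul_sub, smul_comm]
    rw [h1, Finsupp.finset_sum_apply]
    refine Finset.dvd_sum fun w _ => ?_
    rw [Finsupp.smul_apply, smul_eq_mul, Finsupp.sub_apply, Finsupp.smul_apply, smul_eq_mul]
    rcases hL2 w with h | h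
    · exact h.mul_right _
    · exact (hS _ h u).mul_left _
  -- the reduction of `T D`
  obtain ⟨⟨g₀, hg₀O⟩, hg₀⟩ := G.ρ_surj g
  have hne : ∀ (f : F) (hf : f ∈ G.O), G.ρ ⟨f, hf⟩ ≠ 0 → f ≠ 0 := by
    rintro f hf h rfl
    exact h (map_zero G.ρ)
  have hg₀ρ : G.ρ ⟨g₀, hg₀O⟩ ≠ 0 := hg₀.symm ▸ hg0
  have hrT : ∀ (f : F) (hf : f ∈ G.O) (h0 : G.ρ ⟨f, hf⟩ ≠ 0),
      R.r (T (div f)) = div (τb (G.ρ ⟨f, hf⟩)) := by
    intro f hf h0
    obtain ⟨h1, h2, h3⟩ := hτ f hf h0
    rw [hTτ f (hne f hf h0), R.r_div _ h1 (by rw [h2]; exact h3), h2]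
  have key := TriLow.apply_eq_zero_of_red R (R.r.comp T) c (fun v => R.nonneg _ (hT v))
    (fun v => by rw [AddMonoidHom.comp_apply, R.degree_r]; exact hTd v)
    (fun f g hf hg h0 h => by
      rw [AddMonoidHom.comp_apply, AddMonoidHom.comp_apply, hrT f hf h0, hrT g hg (h ▸ h0), h])
    (D := div g₀ - D) (by rw [map_sub, R.r_div _ hg₀O hg₀ρ, hg₀, hrD, sub_self])
  rw [AddMonoidHom.comp_apply, map_sub, map_sub, hrT g₀ hg₀O hg₀ρ, hg₀, sub_eq_zero] at key
  have h2 := dvd_map R hTD w
  rw [map_sub, map_zsmul, ← key, hrD, Finsupp.sub_apply, Finsupp.smul_apply, smul_eq_mul,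
    div_apply, div_apply] at h2
  exact h2

end Fermat.Agent.Ext.Wide
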