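import Fermat.Agent.Ext.Wide.Defs
import Fermat.Agent.Ext.Wide.SpecAbs

/-!
# Specialisation of the Hecke correspondence at the zeros of `j`

`wideAt_of`: if `T_ℓ` acts as `ℓ + 1` modulo three on the zeros of `j` of multiplicity prime to
three of `X₀(m)` over `ℚ̄`, then it acts as `ℓ + 1` modulo three on the functions over the residue
field whose divisor is concentrated, modulo three, on the zeros of `j` of multiplicity prime to
three.
-/

set_option autoImplicit false

open AlgebraicCurve WithZero Module Polynomial ModularCurve HahnSeries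
open scoped IntermediateField
open Fermat.Agent.RR Fermat.Agent.FF Fermat.Agent.Deuring Fermat.Agent.S37aux
  Fermat.Agent.GaussVal

noncomputable section

namespace Fermat.Agent.Ext.Wide

variable {A : ValuationSubring (AlgebraicClosure ℚ)} {p : ℕ} {N : ℕ} [NeZero N]

theorem incl_jqModC (A : ValuationSubring (AlgebraicClosure ℚ)) :
    incl A (jqModC A) = jqModC (AlgebraicClosure ℚ) := coeffMap_jqModC _

theorem redS_jqModC (A : ValuationSubring (AlgebraicClosure ℚ)) :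
    redS A (jqModC A) = jqModC (RF A) := coeffMap_jqModC _

theorem jF_mem_gauss (hp : p.Prime) (hA : A.LiesOverPrime p) (h : DegC A N) :
    X0Emb.jF N ∈ (gauss hp hA N h).O := by
  rw [mem_gauss_O, X0Emb.coe_jF, ← incl_jqModC A]
  exact incl_mem _

theorem gauss_ρ_jF (hp : p.Prime) (hA : A.LiesOverPrime p) (h : DegC A N) :
    (gauss hp hA N h).ρ ⟨X0Emb.jF N, jF_mem_gauss hp hA h⟩ = jC A N := by
  apply Subtype.ext
  rw [coe_gauss_ρ]
  have h1 : gaussRed A ⟨(X0Emb.jF N : LaurentSeries (AlgebraicClosure ℚ)),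
      jF_mem_gauss hp hA h⟩ = gaussRed A ⟨incl A (jqModC A), incl_mem _⟩ :=
    congrArg (gaussRed A) (Subtype.ext ((X0Emb.coe_jF N).trans (incl_jqModC A).symm))
  refine h1.trans ?_
  rw [gaussRed_incl, redS_jqModC]
  exact (coe_jEl _ _ _ rfl).symm

/-- **(WIDE)** The specialised Hecke correspondence at the wide nodes, for a place over any prime
`p` not dividing `N`. -/
theorem hecke_wide (hp : p.Prime) (hA : A.LiesOverPrime p) (hN : ¬ p ∣ N) {ℓ : ℕ} [NeZero ℓ]
    (hℓ : ℓ.Prime) (hℓN : ¬ ℓ ∣ N) (hell : EllHecke N ℓ) : WideAt A N ℓ := by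
  classical
  intro g g' hg0 hw hg' w
  have h := degC A N (cast_ne_zero hp hA hN)
  have := h.isFF
  have hg : genusFF (AlgebraicClosure ℚ) (modularFunctionFieldBar N) ≤ genusFF (RF A) (FC A N) :=
    GoodRed.genus_le_all hp hA N hN
  obtain ⟨R, -⟩ := (gauss hp hA N h).exists_redMap_of_le hg
  let τb : FC A N → FC A N := fun g =>
    if h : TEll.TSer (RF A) ℓ (g : LaurentSeries (RF A)) ∈ FC A N then ⟨_, h⟩ else 0
  have hτb : ∀ (g g' : FC A N), (g' : LaurentSeries (RF A)) =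
      TEll.TSer (RF A) ℓ (g : LaurentSeries (RF A)) → τb g = g' := by
    intro g g' hg
    have hmem : TEll.TSer (RF A) ℓ (g : LaurentSeries (RF A)) ∈ FC A N := by
      rw [← hg]; exact g'.2
    change (if h : TEll.TSer (RF A) ℓ (g : LaurentSeries (RF A)) ∈ FC A N then
      (⟨_, h⟩ : FC A N) else 0) = g'
    rw [dif_pos hmem]
    exact Subtype.ext hg.symm
  rw [← hτb g g' hg']
  refine hecke_mod R hg (TEll.heckeDiv N ℓ)
    (finrankAlong (AlgebraicClosure ℚ) (heckeBetaBar (AlgebraicClosure ℚ) N ℓ))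
    (fun v => TEll.heckeDiv_nonneg (single_nonneg v)) (fun v => ?_)
    (TEll.TEll (AlgebraicClosure ℚ) N ℓ) (fun f hf => TEll.heckeDiv_div hf) τb
    (fun f hf h0 => ?_) (S := {v | 0 < v.ord (X0Emb.jF N) ∧ ¬ (3 : ℤ) ∣ v.ord (X0Emb.jF N)})
    (fun v hv u => hell v hv.1 hv.2 u) hg0 (fun w => ?_) w
  · rw [TEll.degree_heckeDiv, degree_single_one, mul_one]
  · have hf1 : (f : LaurentSeries (AlgebraicClosure ℚ)) ∈ gaussSubring A := mem_gauss_O.1 hf
    have e1 := TEll.coe_TEll_bar N ℓ hℓ hℓN f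
    have h1 : (TEll.TEll (AlgebraicClosure ℚ) N ℓ f : LaurentSeries (AlgebraicClosure ℚ)) ∈
        gaussSubring A := by
      rw [e1]
      exact TEll.TSer_mem_gaussSubring A ℓ hf1
    have h2 : ((gauss hp hA N h).ρ ⟨_, mem_gauss_O.2 h1⟩ : LaurentSeries (RF A)) =
        TEll.TSer (RF A) ℓ ((gauss hp hA N h).ρ ⟨f, hf⟩ : LaurentSeries (RF A)) := by
      rw [coe_gauss_ρ, coe_gauss_ρ]
      have h3 : gaussRed A ⟨(TEll.TEll (AlgebraicClosure ℚ) N ℓ f :
          LaurentSeries (AlgebraicClosure ℚ)), h1⟩ =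
          gaussRed A ⟨TEll.TSer (AlgebraicClosure ℚ) ℓ f, TEll.TSer_mem_gaussSubring A ℓ hf1⟩ :=
        congrArg (gaussRed A) (Subtype.ext e1)
      exact h3.trans (TEll.gaussRed_TSer A ℓ ⟨_, hf1⟩)
    have h3 := hτb _ _ h2
    refine ⟨mem_gauss_O.2 h1, h3.symm, ?_⟩
    rw [h3]
    intro h4
    have h5 : ((gauss hp hA N h).ρ ⟨f, hf⟩ : LaurentSeries (RF A)) ≠ 0 := by
      intro h6
      exact h0 (Subtype.ext h6)
    apply TEll.TSer_ne_zero ℓ h5
    rw [← h2, h4]
    rfl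
  · rcases hw w with h1 | ⟨h1, h2⟩
    · exact Or.inl h1
    · rw [← gauss_ρ_jF hp hA h] at h1 h2
      obtain ⟨v, hv, h3, h4⟩ := exists_lift_zero R (jF_mem_gauss hp hA h)
        (TEll.transcendental_jF0 N) (by rw [gauss_ρ_jF]; exact transcendental_jC A N)
        (by
          rw [gauss_ρ_jF]
          exact (TEll.finrank_jF0 N).trans (show finrank (RF A)⟮jC A N⟯ (FC A N) = _ from h).symm)
        h1 h2
      exact Or.inr ⟨v, ⟨h3, h4⟩, hv⟩

/-- **(B)** of the wide nodes. -/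
theorem wideAt_of {A : ValuationSubring (AlgebraicClosure ℚ)} (hA : A.LiesOverPrime 3) {m : ℕ}
    [NeZero m] (hm : ¬ 3 ∣ m) {ℓ : ℕ} [NeZero ℓ] (hℓ : ℓ.Prime) (hℓm : ¬ ℓ ∣ m)
    (HA : EllHecke m ℓ) : WideAt A m ℓ :=
  hecke_wide Nat.prime_three hA hm hℓ hℓm HA

end Fermat.Agent.Ext.Wide
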